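/-
S43 (route TWX), block BIGIMG: definitions.

* `rhoFp P` : `E[p]` as a `ResidualGaloisRep (ZMod p)` (`E` the Frey curve of `P`);
* `kk P`    : the field with `p ^ 2` elements;
* `rho P`   : `E[p] ⊗ kk P` as a `ResidualGaloisRep (kk P)`.
-/
import Fermat.Agent.MR.E.Base
import Fermat.Agent.S13.FieldOfDef
import Fermat.Prelude.Def_GaloisRep_Residual
import Mathlib.FieldTheory.Finite.GaloisField

set_option autoImplicit false

noncomputable section

namespace Fermat.Agent.S43.BigImg

open WeierstrassCurve WeierstrassCurve.Affine WeierstrassCurve.Affine.Point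
open Fermat.Agent.MR.E
open scoped TensorProduct

/-- the absolute Galois group of `ℚ`. -/
abbrev GQ' : Type := AlgebraicClosure ℚ ≃ₐ[ℚ] AlgebraicClosure ℚ

instance factPrime (P : FreyPackage) : Fact P.p.Prime := ⟨P.pp⟩

theorem level_Ep (P : FreyPackage) :
    GaloisFactorsThroughFiniteLevel
      (galoisRepModuleEnd (K := AlgebraicClosure ℚ) ℚ P.freyCurve P.p) := by
  obtain ⟨M, hM, h⟩ := S13.frey_exists_field_of_def P
  refine ⟨M, hM, fun σ hσ => ?_⟩
  refine LinearMap.ext fun x => ?_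
  rw [galoisRepModuleEnd_apply, Module.End.one_apply]
  exact h σ ((IntermediateField.mem_fixingSubgroup_iff _ σ).2 hσ) x

/-- `E[p]` as a residual representation over `ZMod p`. -/
def rhoFp (P : FreyPackage) : ResidualGaloisRep (ZMod P.p) :=
  P.freyCurve.residualGaloisRepOf P.p (card_Ep P) (level_Ep P)

theorem rhoFp_V (P : FreyPackage) : (rhoFp P).V = Ep P := rfl

theorem rhoFp_apply (P : FreyPackage) (σ : GQ') (x : Ep P) :
    (rhoFp P).ρ σ x = σ • x := rfl

/-- the field with `p ^ 2` elements. -/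
abbrev kk (P : FreyPackage) : Type := GaloisField P.p 2

/-- `E[p] ⊗ 𝔽_{p²}`. -/
abbrev rho (P : FreyPackage) : ResidualGaloisRep (kk P) := (rhoFp P).baseChange (kk P)

theorem rho_apply (P : FreyPackage) (σ : GQ') :
    (rho P).ρ σ = ((rhoFp P).ρ σ).baseChange (kk P) := rfl

theorem rho_apply_tmul (P : FreyPackage) (σ : GQ') (c : kk P) (x : Ep P) :
    (rho P).ρ σ (c ⊗ₜ[ZMod P.p] (x : (rhoFp P).V)) = c ⊗ₜ[ZMod P.p] ((σ • x : Ep P) : (rhoFp P).V) := rfl

end Fermat.Agent.S43.BigImg

end
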