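/-
S43 (route TWX), block BIGIMG: the characteristic polynomials of `rho P` split over `𝔽_{p²}`.
-/
import Fermat.Agent.S43.BigImg.Defs

set_option autoImplicit false

noncomputable section

namespace Fermat.Agent.S43.BigImg

open Polynomial
open scoped TensorProduct

theorem quad_split {k : Type*} [Field k] (h2 : (2 : k) ≠ 0) (b c s : k) (hs : s * s = b ^ 2 - 4 * c) :
    (X ^ 2 + C b * X + C c : k[X]) = (X - C ((-b + s) / 2)) * (X - C ((-b - s) / 2)) := by
  have h1 : (-b + s) / 2 + (-b - s) / 2 = -b := by field_simp; ring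
  have h3 : (-b + s) / 2 * ((-b - s) / 2) = c := by
    field_simp
    linear_combination -hs
  have h4 : (X - C ((-b + s) / 2)) * (X - C ((-b - s) / 2)) =
      X ^ 2 - C ((-b + s) / 2 + (-b - s) / 2) * X + C ((-b + s) / 2 * ((-b - s) / 2)) := by
    rw [C_add, C_mul]; ring
  rw [h4, h1, h3, C_neg]
  ring

theorem monic_two_eq {k : Type*} [Field k] (q : k[X]) (hm : q.Monic) (hd : q.natDegree = 2) :
    q = X ^ 2 + C (q.coeff 1) * X + C (q.coeff 0) := by
  ext n
  have hlead : q.coeff 2 = 1 := by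
    have := hm.coeff_natDegree
    rwa [hd] at this
  rcases n with _ | _ | _ | n
  · simp
  · simp
  · simp [hlead]
  · rw [coeff_eq_zero_of_natDegree_lt (by omega)]
    simp [coeff_X_pow]

theorem card_kk (P : FreyPackage) : Nat.card (kk P) = P.p ^ 2 := GaloisField.card P.p 2 (by norm_num)

theorem isSquare_algebraMap (P : FreyPackage) (x : ZMod P.p) :
    IsSquare (algebraMap (ZMod P.p) (kk P) x) := by
  classical
  by_cases hx : x = 0
  · subst hx
    rw [map_zero]
    exact IsSquare.zero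
  have : Fintype (kk P) := Fintype.ofFinite _
  have hp5 := P.hp5
  have hchar : ringChar (kk P) ≠ 2 := by
    rw [ringChar.eq (kk P) P.p]
    omega
  have hx' : algebraMap (ZMod P.p) (kk P) x ≠ 0 := by
    rw [Ne, map_eq_zero_iff _ (algebraMap (ZMod P.p) (kk P)).injective]
    exact hx
  rw [FiniteField.isSquare_iff hchar hx', ← Nat.card_eq_fintype_card, card_kk]
  obtain ⟨m, hm⟩ := P.hp_odd
  have h1 : P.p ^ 2 / 2 = (P.p - 1) * (m + 1) := by
    have h2 : P.p ^ 2 = 2 * ((P.p - 1) * (m + 1)) + 1 := by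
      have h3 : P.p - 1 = 2 * m := by omega
      rw [h3, hm]
      ring
    omega
  rw [h1, pow_mul, ← map_pow, ZMod.pow_card_sub_one_eq_one hx, map_one, one_pow]

theorem two_ne_zero_kk' (P : FreyPackage) : (2 : kk P) ≠ 0 := by
  intro h
  have h2 : ((2 : ℕ) : kk P) = 0 := by exact_mod_cast h
  rw [CharP.cast_eq_zero_iff (kk P) P.p 2] at h2
  have := Nat.le_of_dvd (by norm_num) h2
  have := P.hp5
  omega

theorem hsplit (P : FreyPackage) (σ : GQ') :
    ∃ α β : kk P, LinearMap.charpoly ((rho P).ρ σ) = (X - C α) * (X - C β) := by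
  have h1 : LinearMap.charpoly ((rho P).ρ σ) =
      (LinearMap.charpoly ((rhoFp P).ρ σ)).map (algebraMap (ZMod P.p) (kk P)) :=
    LinearMap.charpoly_baseChange _ _
  set q := LinearMap.charpoly ((rhoFp P).ρ σ) with hq
  have hm : q.Monic := LinearMap.charpoly_monic _
  have hd : q.natDegree = 2 := by rw [hq, LinearMap.charpoly_natDegree, (rhoFp P).finrank_eq]
  obtain ⟨s, hs⟩ := isSquare_algebraMap P ((q.coeff 1) ^ 2 - 4 * q.coeff 0)
  have h5 : q.map (algebraMap (ZMod P.p) (kk P)) =
      X ^ 2 + C (algebraMap (ZMod P.p) (kk P) (q.coeff 1)) * X +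
        C (algebraMap (ZMod P.p) (kk P) (q.coeff 0)) := by
    conv_lhs => rw [monic_two_eq q hm hd]
    simp only [Polynomial.map_add, Polynomial.map_mul, Polynomial.map_pow, map_X, map_C]
  have h6 := quad_split (two_ne_zero_kk' P) (algebraMap (ZMod P.p) (kk P) (q.coeff 1))
    (algebraMap (ZMod P.p) (kk P) (q.coeff 0)) s (by
      rw [← hs]
      simp only [map_sub, map_mul, map_pow, map_ofNat])
  exact ⟨_, _, h1.trans (h5.trans h6)⟩

end Fermat.Agent.S43.BigImg

end
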