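/-
S43 (route TWX), block BIGIMG: `det (rho P) = ` cyclotomic character (without the Weil pairing).

Every `g ∈ G_ℚ` satisfies on `E[p]` a relation `g² - t g + d = 0` with `g ζ = ζ ^ d` on `μ_p` (Frobenius density + the relation
`σ² - a_ℓ σ + ℓ = 0`).  So `det g = d` if `g` is not scalar; the non scalar elements generate (`z = (z g) g⁻¹`).
-/
import Fermat.Agent.S43.BigImg.Split
import Fermat.Agent.S58.Quad.Mu
import Fermat.Agent.S58.Quad.Lucas
import Fermat.Agent.Lib.FrobDensity.GALInterface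
import Fermat.Agent.S12.Start.Frey
import Fermat.Prelude.Def_GaloisRep_LocalConditions

set_option autoImplicit false

noncomputable section

namespace Fermat.Agent.S43.BigImg

open WeierstrassCurve WeierstrassCurve.Affine WeierstrassCurve.Affine.Point
open Fermat.Agent.MR.E
open Polynomial
open scoped TensorProduct

/-- `g` acts on `μ_p` by `ζ ↦ ζ ^ a`. -/
def Cyc (P : FreyPackage) (g : GQ') (a : ℕ) : Prop :=
  ∀ ζ : AlgebraicClosure ℚ, ζ ^ P.p = 1 → g ζ = ζ ^ a

theorem Cyc.unique {P : FreyPackage} {g : GQ'} {a d : ℕ} (ha : Cyc P g a) (hd : Cyc P g d) :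
    (a : ZMod P.p) = d := by
  have : NeZero P.p := ⟨P.pp.ne_zero⟩
  obtain ⟨ζ, hζ⟩ := HasEnoughRootsOfUnity.exists_primitiveRoot (AlgebraicClosure ℚ) P.p
  have h1 : ζ ^ a = ζ ^ d := by rw [← ha ζ hζ.pow_eq_one, hd ζ hζ.pow_eq_one]
  have hfin : IsOfFinOrder ζ := isOfFinOrder_iff_pow_eq_one.2 ⟨P.p, P.pp.pos, hζ.pow_eq_one⟩
  rw [hfin.pow_eq_pow_iff_modEq, ← hζ.eq_orderOf] at h1
  exact (ZMod.natCast_eq_natCast_iff a d P.p).2 h1

theorem Cyc.mul {P : FreyPackage} {g h : GQ'} {a d : ℕ} (ha : Cyc P g a) (hd : Cyc P h d) :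
    Cyc P (g * h) (d * a) := by
  intro ζ hζ
  rw [AlgEquiv.mul_apply, hd ζ hζ, map_pow, ha ζ hζ, ← pow_mul, mul_comm]

/-- the quadratic relation. -/
theorem quad_Ep (P : FreyPackage) (g : GQ') :
    ∃ (t : ℤ) (d : ℕ), Cyc P g d ∧ ∀ x : Ep P, g • g • x - t • g • x + (d : ℤ) • x = 0 := by
  obtain ⟨M, hM, hfix⟩ := S13.frey_exists_field_of_def P
  obtain ⟨F, hFfd, h1, -, h3⟩ := S58.exists_level M M hM hM P.p P.pp.pos
  obtain ⟨S, hS⟩ := E_GLOB P P.freyCurveInt (S12.Start.freyInt_isIntegralModelOf P)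
  obtain ⟨ℓ, A, σ, b, hℓ, hℓB, hA, hσ, hgσ⟩ :=
    Fermat.Agent.Lib.FrobDensity.gal_frobeniusDensity F hFfd g (S ∪ {P.p})
  simp only [Finset.mem_union, Finset.mem_singleton, not_or] at hℓB
  obtain ⟨hℓS, hℓp⟩ := hℓB
  have hℓp' : ¬ ℓ ∣ P.p := fun hd => hℓp ((Nat.prime_dvd_prime_iff_eq hℓ P.pp).1 hd)
  set h : GQ' := (σ ^ b)⁻¹ * g with hh
  have hg : g = σ ^ b * h := by rw [hh, mul_inv_cancel_left]
  have hhF : ∀ x ∈ F, h x = x := by
    intro x hx
    have : (σ ^ b) (h x) = (σ ^ b) x := by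
      rw [← AlgEquiv.mul_apply, ← hg, hgσ x hx]
    exact (σ ^ b).injective this
  have hgx : ∀ x : Ep P, g • x = (σ ^ b) • x := by
    intro x
    rw [hg, mul_smul, hfix h ((IntermediateField.mem_fixingSubgroup_iff _ h).2
      (fun y hy => hhF y (h1 hy))) x]
  refine ⟨S58.lucasV (P.freyCurveInt.apOfModel ℓ) ℓ b, ℓ ^ b, ?_, ?_⟩
  · intro ζ hζ
    rw [← hgσ ζ (h3 ζ hζ)]
    exact S58.frobenius_pow_rootOfUnity hℓ hA hσ hℓp' b hζ
  · intro x
    rw [hgx (g • x), hgx x]
    have := S58.lucas_smul (Γ := GQ') (G := Ep P) ⊤ σ (fun _ _ => trivial)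
      (P.freyCurveInt.apOfModel ℓ) ℓ (fun x _ => hS ℓ hℓ hℓS A hA σ hσ x) b x trivial
    simpa using this

theorem det_eq_of_quad {k V : Type*} [Field k] [AddCommGroup V] [Module k V]
    (hV : Module.finrank k V = 2) (f : Module.End k V) (t d : k)
    (h : ∀ x : V, f (f x) - t • f x + d • x = 0) (hns : ¬ ∃ c : k, f = c • (1 : Module.End k V)) :
    LinearMap.det f = d := by
  have : Module.Finite k V := Module.finite_of_finrank_eq_succ hV
  have : Nontrivial V := Module.nontrivial_of_finrank_pos (R := k) (by rw [hV]; norm_num)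
  have hm : f.charpoly.Monic := LinearMap.charpoly_monic _
  have hd : f.charpoly.natDegree = 2 := by rw [LinearMap.charpoly_natDegree, hV]
  have hdet : LinearMap.det f = f.charpoly.coeff 0 := by
    rw [LinearMap.det_eq_sign_charpoly_coeff, hV]
    norm_num
  have hCH := LinearMap.aeval_self_charpoly f
  rw [monic_two_eq _ hm hd] at hCH
  simp only [map_add, map_mul, map_pow, aeval_X, aeval_C] at hCH
  have hCH' : ∀ x : V, f (f x) + f.charpoly.coeff 1 • f x + f.charpoly.coeff 0 • x = 0 := by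
    intro x
    have := LinearMap.congr_fun hCH x
    simpa [pow_two, Module.algebraMap_end_apply] using this
  set c₁ := f.charpoly.coeff 1
  set c₀ := f.charpoly.coeff 0
  have hsub : ∀ x : V, (c₁ + t) • f x + (c₀ - d) • x = 0 := by
    intro x
    have := sub_eq_zero.2 ((hCH' x).trans (h x).symm)
    rw [← this, add_smul, sub_smul]
    abel
  by_cases hc : c₁ + t = 0
  · obtain ⟨x, hx⟩ := exists_ne (0 : V)
    have := hsub x
    rw [hc, zero_smul, zero_add] at this
    rw [hdet]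
    exact sub_eq_zero.1 ((smul_eq_zero.1 this).resolve_right hx)
  · exfalso
    refine hns ⟨-(c₁ + t)⁻¹ * (c₀ - d), LinearMap.ext fun x => ?_⟩
    have := congrArg (fun y => (c₁ + t)⁻¹ • y) (hsub x)
    simp only [smul_add, smul_smul, inv_mul_cancel₀ hc, one_smul, smul_zero] at this
    rw [LinearMap.smul_apply, Module.End.one_apply, neg_mul, neg_smul]
    exact eq_neg_of_add_eq_zero_left this

/-- `g` acts on `E[p]` by a scalar. -/
def IsScal (P : FreyPackage) (g : GQ') : Prop :=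
  ∃ c : ZMod P.p, (rhoFp P).ρ g = c • (1 : Module.End (ZMod P.p) (rhoFp P).V)

theorem det_of_not_scal (P : FreyPackage) (g : GQ') (hg : ¬ IsScal P g) (a : ℕ) (ha : Cyc P g a) :
    LinearMap.det ((rhoFp P).ρ g) = (a : ZMod P.p) := by
  obtain ⟨t, d, hd, hq⟩ := quad_Ep P g
  rw [ha.unique hd]
  refine det_eq_of_quad (rhoFp P).finrank_eq _ (t : ZMod P.p) (d : ZMod P.p) ?_ hg
  intro x
  have := hq x
  rw [Int.cast_smul_eq_zsmul, Nat.cast_smul_eq_nsmul, ← natCast_zsmul]
  exact this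

theorem exists_not_scal (P : FreyPackage)
    (hirr : GaloisRepIsIrreducible (K := AlgebraicClosure ℚ) ℚ P.freyCurve P.p) :
    ∃ g : GQ', ¬ IsScal P g := by
  by_contra hcon
  push Not at hcon
  have := hirr.1
  obtain ⟨x, hx⟩ := exists_ne (0 : Ep P)
  have hst : IsGaloisStable ℚ (Submodule.span (ZMod P.p) {x}) := by
    intro σ y hy
    obtain ⟨c, hc⟩ := hcon σ
    have h1 : σ • y = c • y := LinearMap.congr_fun hc y
    rw [h1]
    exact Submodule.smul_mem _ _ hy
  rcases hirr.2 _ hst with h | h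
  · rw [Submodule.span_singleton_eq_bot] at h
    exact hx h
  · have h1 := finrank_span_singleton (K := ZMod P.p) hx
    rw [h, finrank_top] at h1
    have h2 : Module.finrank (ZMod P.p) (Ep P) = 2 := (rhoFp P).finrank_eq
    omega

theorem det_Ep (P : FreyPackage)
    (hirr : GaloisRepIsIrreducible (K := AlgebraicClosure ℚ) ℚ P.freyCurve P.p)
    (σ : GQ') (a : ℕ) (ha : Cyc P σ a) : LinearMap.det ((rhoFp P).ρ σ) = (a : ZMod P.p) := by
  by_cases hs : IsScal P σ
  · obtain ⟨g, hg⟩ := exists_not_scal P hirr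
    obtain ⟨-, d, hd, -⟩ := quad_Ep P g
    have hσg : ¬ IsScal P (σ * g) := by
      rintro ⟨c', hc'⟩
      obtain ⟨c, hc⟩ := hs
      have hc0 : c ≠ 0 := by
        rintro rfl
        rw [zero_smul] at hc
        have h1 : (rhoFp P).ρ (σ⁻¹ * σ) = 0 := by rw [map_mul, hc, mul_zero]
        rw [inv_mul_cancel, map_one] at h1
        have : Nontrivial (rhoFp P).V :=
          Module.nontrivial_of_finrank_pos (R := ZMod P.p) (by rw [(rhoFp P).finrank_eq]; norm_num)
        exact one_ne_zero h1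
      apply hg
      refine ⟨c⁻¹ * c', ?_⟩
      rw [map_mul, hc, smul_mul_assoc, one_mul] at hc'
      rw [mul_smul, ← hc', smul_smul, inv_mul_cancel₀ hc0, one_smul]
    have h1 := det_of_not_scal P (σ * g) hσg _ (ha.mul hd)
    have h2 := det_of_not_scal P g hg d hd
    rw [map_mul, map_mul, h2, Nat.cast_mul, mul_comm] at h1
    have hd0 : (d : ZMod P.p) ≠ 0 := by
      rw [← h2]
      intro h0
      have h3 : LinearMap.det ((rhoFp P).ρ (g⁻¹ * g)) = 0 := by rw [map_mul, map_mul, h0, mul_zero]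
      rw [inv_mul_cancel, map_one, map_one] at h3
      exact one_ne_zero h3
    exact mul_left_cancel₀ hd0 h1
  · exact det_of_not_scal P σ hs a ha

theorem hdet (P : FreyPackage)
    (hirr : GaloisRepIsIrreducible (K := AlgebraicClosure ℚ) ℚ P.freyCurve P.p) :
    (GaloisRepAdic.ofResidualGaloisRep (rho P)).DetIsCyclotomic P.p := by
  refine ⟨?_, ?_⟩
  · rw [CharP.cast_eq_zero (kk P) P.p]
    exact Submodule.zero_mem _
  · intro n σ a h
    rcases n with _ | n
    · rw [pow_zero, Nat.cast_one, Ideal.span_singleton_one]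
      trivial
    · have ha : Cyc P σ a := by
        intro ζ hζ
        refine h ζ ?_
        rw [pow_succ', pow_mul, hζ, one_pow]
      have h1 : LinearMap.det ((GaloisRepAdic.ofResidualGaloisRep (rho P)).ρ σ) = (a : kk P) := by
        have h2 : LinearMap.det ((rho P).ρ σ) =
            algebraMap (ZMod P.p) (kk P) (LinearMap.det ((rhoFp P).ρ σ)) :=
          LinearMap.det_baseChange _
        rw [det_Ep P hirr σ a ha, map_natCast] at h2
        exact h2
      rw [h1, sub_self]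
      exact Submodule.zero_mem _

end Fermat.Agent.S43.BigImg

end
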