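/-
S43 (route TWX), block BIGIMG: pure algebra (R1).

`irr_of_unip`: let `V₀` be a plane over `k₀` with an irreducible action of `G`, and `u ∈ G` acting as `1 + N`, `N ≠ 0`, `N² = 0`.
Let `X` be "`V₀ ⊗ K`" (`ι : V₀ → X` semilinear, equivariant, with `K`-spanning image), `2 ≠ 0` in `K`.  Then for every normal
subgroup `H` containing `u ^ 2` the only `H`-stable `K`-subspaces of `X` are `⊥` and `⊤`.
-/
import Mathlib

set_option autoImplicit false

namespace Fermat.Agent.S43.BigImg

section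

variable {k₀ K : Type*} [Field k₀] [Field K] {V₀ X : Type*} [AddCommGroup V₀] [Module k₀ V₀]
  [AddCommGroup X] [Module K X] {G : Type*} [Group G]

/-- a subspace `≠ ⊥` stable under `1 + N` contains `e₁`. -/
theorem mem_of_stable_unip (h2 : (2 : K) ≠ 0) (f : Module.End K X) (e₁ e₂ : X)
    (hspan : ∀ w : X, ∃ a b : K, w = a • e₁ + b • e₂)
    (hf1 : f e₁ = e₁) (hf2 : f e₂ = e₂ + (2 : K) • e₁)
    (W : Submodule K X) (hW : ∀ x ∈ W, f x ∈ W) (hne : W ≠ ⊥) : e₁ ∈ W := by
  obtain ⟨w, hwW, hw0⟩ := (Submodule.ne_bot_iff W).1 hne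
  obtain ⟨a, b, rfl⟩ := hspan w
  by_cases hb : b = 0
  · subst hb
    rw [zero_smul, add_zero] at hwW hw0
    have ha : a ≠ 0 := by
      rintro rfl
      exact hw0 (zero_smul _ _)
    have := W.smul_mem a⁻¹ hwW
    rwa [smul_smul, inv_mul_cancel₀ ha, one_smul] at this
  · have h1 : f (a • e₁ + b • e₂) - (a • e₁ + b • e₂) ∈ W := W.sub_mem (hW _ hwW) hwW
    have h3 : f (a • e₁ + b • e₂) - (a • e₁ + b • e₂) = (b * 2) • e₁ := by
      rw [map_add, map_smul, map_smul, hf1, hf2, smul_add, smul_smul]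
      abel
    rw [h3] at h1
    have := W.smul_mem (b * 2)⁻¹ h1
    rwa [smul_smul, inv_mul_cancel₀ (mul_ne_zero hb h2), one_smul] at this

theorem irr_of_unip (φ : k₀ →+* K) (ρ₀ : G →* Module.End k₀ V₀) (r : G →* Module.End K X)
    (ι : V₀ →+ X) (hι : ∀ (c : k₀) (x : V₀), ι (c • x) = φ c • ι x)
    (hr : ∀ (g : G) (x : V₀), r g (ι x) = ι (ρ₀ g x))
    (hspan : Submodule.span K (Set.range ι) = ⊤) (hfr : Module.finrank k₀ V₀ = 2)
    (hirr : ∀ W : Submodule k₀ V₀, (∀ g : G, ∀ x ∈ W, ρ₀ g x ∈ W) → W = ⊥ ∨ W = ⊤)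
    (h2 : (2 : K) ≠ 0) (u : G) (hu1 : ρ₀ u ≠ 1) (hu2 : ∀ x : V₀, ρ₀ u (ρ₀ u x - x) = ρ₀ u x - x)
    (H : Subgroup G) [H.Normal] (huH : u ^ 2 ∈ H) (W : Submodule K X)
    (hW : ∀ h ∈ H, ∀ x ∈ W, r h x ∈ W) : W = ⊥ ∨ W = ⊤ := by
  classical
  by_cases hne : W = ⊥
  · exact Or.inl hne
  right
  -- the basis `e₁ = N v`, `e₂ = v`
  obtain ⟨v, hv⟩ : ∃ v : V₀, ρ₀ u v - v ≠ 0 := by
    by_contra hcon
    push Not at hcon
    exact hu1 (LinearMap.ext fun x => by rw [Module.End.one_apply]; exact sub_eq_zero.1 (hcon x))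
  set e₁ : V₀ := ρ₀ u v - v with he₁
  have hue₁ : ρ₀ u e₁ = e₁ := hu2 v
  have huv : ρ₀ u v = v + e₁ := by rw [he₁]; abel
  have hli : LinearIndependent k₀ ![e₁, v] := by
    rw [LinearIndependent.pair_iff]
    intro s t hst
    have h1 : ρ₀ u (s • e₁ + t • v) = 0 := by rw [hst, map_zero]
    rw [map_add, map_smul, map_smul, hue₁, huv, smul_add] at h1
    have h3 : t • e₁ = 0 := by
      have : s • e₁ + (t • v + t • e₁) - (s • e₁ + t • v) = 0 := by rw [h1, hst, sub_zero]
      rw [← this]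
      abel
    have ht : t = 0 := (smul_eq_zero.1 h3).resolve_right hv
    subst ht
    rw [zero_smul, add_zero] at hst
    exact ⟨(smul_eq_zero.1 hst).resolve_right hv, rfl⟩
  have htop : Submodule.span k₀ (Set.range ![e₁, v]) = ⊤ :=
    hli.span_eq_top_of_card_eq_finrank (by rw [hfr]; rfl)
  have hV₀ : ∀ x : V₀, ∃ a b : k₀, x = a • e₁ + b • v := by
    intro x
    have hx : x ∈ Submodule.span k₀ (Set.range ![e₁, v]) := by rw [htop]; trivial
    rw [Matrix.range_cons, Matrix.range_cons, Matrix.range_empty, Set.union_empty,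
      Set.singleton_union, Submodule.mem_span_pair] at hx
    obtain ⟨a, b, h⟩ := hx
    exact ⟨a, b, h.symm⟩
  have hX : ∀ w : X, ∃ a b : K, w = a • ι e₁ + b • ι v := by
    intro w
    have hw : w ∈ Submodule.span K (Set.range ι) := by rw [hspan]; trivial
    have hle : Submodule.span K (Set.range ι) ≤ Submodule.span K {ι e₁, ι v} := by
      rw [Submodule.span_le]
      rintro _ ⟨x, rfl⟩
      obtain ⟨a, b, rfl⟩ := hV₀ x
      rw [SetLike.mem_coe, Submodule.mem_span_pair]
      exact ⟨φ a, φ b, by rw [map_add, hι, hι]⟩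
    obtain ⟨a, b, h⟩ := Submodule.mem_span_pair.1 (hle hw)
    exact ⟨a, b, h.symm⟩
  have hf1 : r (u ^ 2) (ι e₁) = ι e₁ := by
    rw [hr, pow_two, map_mul, Module.End.mul_apply, hue₁, hue₁]
  have hf2 : r (u ^ 2) (ι v) = ι v + (2 : K) • ι e₁ := by
    rw [hr, pow_two, map_mul, Module.End.mul_apply, huv, map_add, hue₁, huv, map_add, map_add,
      two_smul, add_assoc]
  -- `g e₁ ∈ W` for all `g`
  have hg : ∀ g : G, r g (ι e₁) ∈ W := by
    intro g
    have hst : ∀ x ∈ W.comap (r g), r (u ^ 2) x ∈ W.comap (r g) := by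
      intro x hx
      rw [Submodule.mem_comap] at hx ⊢
      have h1 : r g (r (u ^ 2) x) = r (g * u ^ 2 * g⁻¹) (r g x) := by
        rw [← Module.End.mul_apply, ← Module.End.mul_apply, ← map_mul, ← map_mul,
          inv_mul_cancel_right]
      rw [h1]
      exact hW _ (Subgroup.Normal.conj_mem inferInstance _ huH g) _ hx
    have hne' : W.comap (r g) ≠ ⊥ := by
      obtain ⟨w, hwW, hw0⟩ := (Submodule.ne_bot_iff W).1 hne
      rw [Submodule.ne_bot_iff]
      have h1 : r g (r g⁻¹ w) = w := by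
        rw [← Module.End.mul_apply, ← map_mul, mul_inv_cancel, map_one, Module.End.one_apply]
      refine ⟨r g⁻¹ w, ?_, ?_⟩
      · rw [Submodule.mem_comap, h1]
        exact hwW
      · intro h0
        rw [h0, map_zero] at h1
        exact hw0 h1.symm
    exact mem_of_stable_unip h2 (r (u ^ 2)) (ι e₁) (ι v) hX hf1 hf2 _ hst hne'
  -- the span of the orbit of `e₁`
  have hS : Submodule.span k₀ (Set.range fun g : G => ρ₀ g e₁) = ⊤ := by
    refine (hirr _ ?_).resolve_left ?_
    · intro g x hx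
      induction hx using Submodule.span_induction with
      | mem x hx =>
        obtain ⟨g', rfl⟩ := hx
        refine Submodule.subset_span ⟨g * g', ?_⟩
        simp only [map_mul, Module.End.mul_apply]
      | zero => rw [map_zero]; exact Submodule.zero_mem _
      | add x y _ _ hx hy => rw [map_add]; exact Submodule.add_mem _ hx hy
      | smul c x _ hx => rw [map_smul]; exact Submodule.smul_mem _ _ hx
    · intro h0
      have : e₁ ∈ Submodule.span k₀ (Set.range fun g : G => ρ₀ g e₁) :=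
        Submodule.subset_span ⟨1, by simp only [map_one, Module.End.one_apply]⟩
      rw [h0, Submodule.mem_bot] at this
      exact hv this
  have hall : ∀ x : V₀, ι x ∈ W := by
    intro x
    have hx : x ∈ Submodule.span k₀ (Set.range fun g : G => ρ₀ g e₁) := by rw [hS]; trivial
    induction hx using Submodule.span_induction with
    | mem x hx =>
      obtain ⟨g, rfl⟩ := hx
      simp only
      rw [← hr]
      exact hg g
    | zero => rw [map_zero]; exact Submodule.zero_mem _
    | add x y _ _ hx hy => rw [map_add]; exact Submodule.add_mem _ hx hy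
    | smul c x _ hx => rw [hι]; exact Submodule.smul_mem _ _ hx
  rw [eq_top_iff, ← hspan, Submodule.span_le]
  rintro _ ⟨x, rfl⟩
  exact hall x

end

end Fermat.Agent.S43.BigImg
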