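/-
S43 (route TWX), block BIGIMG: absolute irreducibility and irreducibility on index two subgroups of `rho P`,
from irreducibility of `E[p]` over `𝔽_p` and a non trivial unipotent element `u` (inertia at `2`).
-/
import Fermat.Agent.S43.BigImg.Defs
import Fermat.Agent.S43.BigImg.Alg

set_option autoImplicit false

noncomputable section

namespace Fermat.Agent.S43.BigImg

open WeierstrassCurve WeierstrassCurve.Affine WeierstrassCurve.Affine.Point
open Fermat.Agent.MR.E
open scoped TensorProduct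

/-- a non trivial unipotent element in the image of `G_ℚ` on `E[p]`. -/
def HasUnip (P : FreyPackage) : Prop :=
  ∃ u : GQ', (∃ x : Ep P, u • x ≠ x) ∧ ∀ x : Ep P, u • (u • x - x) = u • x - x

theorem two_ne_zero_kk (P : FreyPackage) (K : Type) [Field K] [Algebra (kk P) K] : (2 : K) ≠ 0 := by
  have h1 : (2 : kk P) ≠ 0 := by
    intro h
    have h2 : ((2 : ℕ) : kk P) = 0 := by exact_mod_cast h
    rw [CharP.cast_eq_zero_iff (kk P) P.p 2] at h2
    have := Nat.le_of_dvd (by norm_num) h2
    have := P.hp5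
    omega
  intro h
  apply h1
  apply (algebraMap (kk P) K).injective
  rw [map_ofNat, _root_.map_zero]
  exact h

/-- `x ↦ 1 ⊗ (1 ⊗ x)`. -/
def iota (P : FreyPackage) (K : Type) [Field K] [Algebra (kk P) K] :
    (rhoFp P).V →+ ((rho P).baseChange K).V where
  toFun x := (1 : K) ⊗ₜ[kk P] ((1 : kk P) ⊗ₜ[ZMod P.p] x : (rho P).V)
  map_zero' := by rw [TensorProduct.tmul_zero, TensorProduct.tmul_zero]
  map_add' x y := by rw [TensorProduct.tmul_add, TensorProduct.tmul_add]

theorem iota_apply (P : FreyPackage) (K : Type) [Field K] [Algebra (kk P) K] (x : (rhoFp P).V) :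
    iota P K x = (1 : K) ⊗ₜ[kk P] ((1 : kk P) ⊗ₜ[ZMod P.p] x : (rho P).V) := rfl

theorem tmul_tmul_eq (P : FreyPackage) (K : Type) [Field K] [Algebra (kk P) K] (a : K) (c : kk P)
    (x : (rhoFp P).V) :
    (a ⊗ₜ[kk P] (c ⊗ₜ[ZMod P.p] x : (rho P).V) : ((rho P).baseChange K).V) =
      (a * algebraMap (kk P) K c) • iota P K x := by
  rw [iota_apply, TensorProduct.smul_tmul', smul_eq_mul, mul_one]
  have h1 : (c ⊗ₜ[ZMod P.p] x : (rho P).V) = c • ((1 : kk P) ⊗ₜ[ZMod P.p] x : (rho P).V) := by
    rw [TensorProduct.smul_tmul', smul_eq_mul, mul_one]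
  rw [h1, TensorProduct.tmul_smul, TensorProduct.smul_tmul', Algebra.smul_def, mul_comm]

theorem iota_smul (P : FreyPackage) (K : Type) [Field K] [Algebra (kk P) K] (c : ZMod P.p)
    (x : (rhoFp P).V) :
    iota P K (c • x) = ((algebraMap (kk P) K).comp (algebraMap (ZMod P.p) (kk P))) c • iota P K x := by
  rw [iota_apply, TensorProduct.tmul_smul, TensorProduct.smul_tmul', Algebra.smul_def, mul_one,
    tmul_tmul_eq, one_mul]
  rfl

theorem iota_span (P : FreyPackage) (K : Type) [Field K] [Algebra (kk P) K] :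
    Submodule.span K (Set.range (iota P K)) = ⊤ := by
  rw [eq_top_iff]
  intro z _
  induction z using TensorProduct.induction_on with
  | zero => exact Submodule.zero_mem _
  | add x y hx hy => exact Submodule.add_mem _ (hx trivial) (hy trivial)
  | tmul a y =>
    induction y using TensorProduct.induction_on with
    | zero => rw [TensorProduct.tmul_zero]; exact Submodule.zero_mem _
    | add x y hx hy => rw [TensorProduct.tmul_add]; exact Submodule.add_mem _ (hx trivial) (hy trivial)
    | tmul c x =>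
      have := tmul_tmul_eq P K a c x
      rw [this]
      exact Submodule.smul_mem _ _ (Submodule.subset_span ⟨x, rfl⟩)

theorem iota_equivariant (P : FreyPackage) (K : Type) [Field K] [Algebra (kk P) K] (σ : GQ')
    (x : (rhoFp P).V) :
    ((rho P).baseChange K).ρ σ (iota P K x) = iota P K ((rhoFp P).ρ σ x) := rfl

/-- **(R1)** for `rho P`. -/
theorem stable_eq_bot_or_top (P : FreyPackage)
    (hirr : GaloisRepIsIrreducible (K := AlgebraicClosure ℚ) ℚ P.freyCurve P.p)
    (u : GQ') (hu1 : ∃ x : Ep P, u • x ≠ x) (hu2 : ∀ x : Ep P, u • (u • x - x) = u • x - x)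
    (K : Type) [Field K] [Algebra (kk P) K] (H : Subgroup GQ') [H.Normal] (huH : u ^ 2 ∈ H)
    (W : Submodule K ((rho P).baseChange K).V)
    (hW : ∀ σ ∈ H, ∀ x ∈ W, ((rho P).baseChange K).ρ σ x ∈ W) : W = ⊥ ∨ W = ⊤ := by
  refine irr_of_unip ((algebraMap (kk P) K).comp (algebraMap (ZMod P.p) (kk P))) (rhoFp P).ρ
    ((rho P).baseChange K).ρ (iota P K) (iota_smul P K) (iota_equivariant P K) (iota_span P K)
    (rhoFp P).finrank_eq ?_ (two_ne_zero_kk P K) u ?_ hu2 H huH W hW
  · intro N hN
    exact hirr.2 N hN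
  · intro h1
    obtain ⟨x, hx⟩ := hu1
    apply hx
    have := LinearMap.congr_fun h1 x
    exact this

theorem habs (P : FreyPackage)
    (hirr : GaloisRepIsIrreducible (K := AlgebraicClosure ℚ) ℚ P.freyCurve P.p) (hu : HasUnip P) :
    (rho P).IsAbsolutelyIrreducible := by
  obtain ⟨u, hu1, hu2⟩ := hu
  intro W hW
  exact stable_eq_bot_or_top P hirr u hu1 hu2 (AlgebraicClosure (kk P)) ⊤ (Subgroup.mem_top _) W
    (fun σ _ x hx => hW σ x hx)

theorem hTW (P : FreyPackage)
    (hirr : GaloisRepIsIrreducible (K := AlgebraicClosure ℚ) ℚ P.freyCurve P.p) (hu : HasUnip P)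
    (K : Type) [Field K] [Algebra (kk P) K] (H : Subgroup GQ') (hH : H.index = 2)
    (V : Submodule K ((rho P).baseChange K).V)
    (hV : ∀ σ ∈ H, ∀ x ∈ V, ((rho P).baseChange K).ρ σ x ∈ V) : V = ⊥ ∨ V = ⊤ := by
  obtain ⟨u, hu1, hu2⟩ := hu
  have : H.Normal := Subgroup.normal_of_index_eq_two hH
  exact stable_eq_bot_or_top P hirr u hu1 hu2 K H (Subgroup.sq_mem_of_index_two hH u) V hV

end Fermat.Agent.S43.BigImg

end
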