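import Fermat.Agent.S43.BigImg.Tent
import Fermat.Agent.S12.Loc.Bad
import Fermat.Agent.S36R.K0.BlockL
import Fermat.Agent.S12.Start.Frey
import Fermat.Agent.MR.E.Base
import Fermat.Agent.Lib.Frobenius

/-!
# S43 / BIGIMG / RAM2 : inertia at a multiplicative prime `ℓ` acts non trivially on `E[p]`
if `p ∤ v_ℓ(Δ)`;  application to the Frey curve at `ℓ = 2`.
-/

set_option autoImplicit false
set_option linter.unusedSectionVars false
set_option linter.unusedVariables false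

namespace Fermat.Agent.S43.BigImg

open Fermat.Agent.S05 Fermat.Agent.S13 Fermat.Agent.S58 Fermat.Agent.S58.LocM
  Fermat.Agent.S15.M1.Loc Fermat.Agent.S12.Loc
open WeierstrassCurve WeierstrassCurve.Affine WeierstrassCurve.Affine.Point

variable {W : WeierstrassCurve ℤ} {A : ValuationSubring Qb}

/-- **RAM.** inertia at a multiplicative prime `ℓ` moves some point of order `p` if
`p ∤ v_ℓ(Δ)`. -/
theorem exists_inertia_moves {ℓ p : ℕ} (hℓ : ℓ.Prime) (hp : p.Prime) (hp2 : p ≠ 2) (hpℓ : p ≠ ℓ)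
    (hΔ : W.Δ ≠ 0) (hℓc : ¬ (ℓ : ℤ) ∣ W.c₄) (hA : A.LiesOverPrime ℓ)
    {d : ℕ} {u : ℤ} (hd : W.Δ = (ℓ : ℤ) ^ d * u) (hu : ¬ (ℓ : ℤ) ∣ u) (hd0 : 0 < d)
    (hpd : ¬ p ∣ d) :
    ∃ σ ∈ A.inertiaSubgroupIn ℚ, ∃ P : EP W, p • P = 0 ∧ σ • P ≠ P := by
  have hℓΔ : (ℓ : ℤ) ∣ W.Δ := by
    rw [hd]; exact Dvd.dvd.mul_right (dvd_pow_self _ hd0.ne') _
  have hM : Mult W A := mult_of hℓ hΔ hℓΔ hℓc hA
  have hℓp : ¬ ℓ ∣ p := fun h => hpℓ ((Nat.prime_dvd_prime_iff_eq hℓ hp).1 h).symm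
  have hNv := val_natCast_eq_one hℓ hA hℓp
  have hodd : Odd p := hp.odd_of_ne_two hp2
  obtain ⟨P, hP0, hpP, hlt⟩ := Mult_exists_node_tors hM hp.two_le hNv
  by_contra hcon
  push Not at hcon
  obtain ⟨γ, hγ⟩ := IsAlgClosed.exists_pow_nat_eq (((EQ W)⁄Qb).Δ) (n := 2) (by norm_num)
  set ν := A.valuation γ with hνdef
  have hν : ν ^ 2 = A.valuation ((EQ W)⁄Qb).Δ := by rw [hνdef, ← map_pow, hγ]
  have hN : IsNodal A.valuation (cen ((EQ W)⁄Qb)) (ν ^ 2) := by rw [hν]; exact hM.isNodal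
  have hWC := isWC_shift ((EQ W)⁄Qb) (cenR ((EQ W)⁄Qb)) (cenT ((EQ W)⁄Qb))
  have hT := hM.isTors hodd hNv
  obtain ⟨hgt, n, hn⟩ := tent hWC hN hT hp hp2 (P := P) hpP hP0 hpP hlt
  have hν0 : ν ≠ 0 := (nu_pos hN).ne'
  have hν1 : ν < 1 := nu_lt_one hN
  set x := xc P - cenR ((EQ W)⁄Qb) with hx
  have hgt' : ν < A.valuation x := hgt
  have hn' : A.valuation x ^ p = ν ^ (2 * n) := hn
  have hx0 : x ≠ 0 := by
    intro h0
    rw [h0, _root_.map_zero] at hgt'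
    exact absurd hgt' (not_lt.mpr zero_le)
  have hxfix : x ∈ IntermediateField.fixedField (A.inertiaSubgroupIn ℚ) := by
    rw [IntermediateField.mem_fixedField_iff]
    intro σ hσ
    rw [hx, map_sub, cenR_fixed (EQ W) σ, ← xc_smul (EQ W) σ P, hcon σ hσ P hpP]
  obtain ⟨τ, hτ⟩ := Fermat.Agent.S36R.K0L.exists_zpow' A hℓ hA hxfix hx0
  set w := A.valuation (ℓ : Qb) with hw
  have hw1 : w < 1 := A.mem_nonunits_iff.mp hA
  have hw0 : w ≠ 0 := by
    rw [hw, Valuation.ne_zero_iff]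
    exact_mod_cast hℓ.ne_zero
  have hΔv : ν ^ 2 = w ^ d := by
    rw [hν, Δ_of, hd]
    push_cast
    rw [map_mul, map_pow, valInt_eq_one A.valuation hℓ (A.mem_nonunits_iff.mp hA) hu, mul_one]
  have h1 : w ^ (τ * p) = w ^ ((d : ℤ) * n) := by
    rw [zpow_mul, ← hτ, zpow_natCast, hn', zpow_mul, zpow_mul, zpow_natCast]
    have e2 : ν ^ (2 : ℤ) = ν ^ 2 := by norm_cast
    rw [e2, hΔv]
  have h2 : τ * p = (d : ℤ) * n :=
    zpow_right_injective₀ (zero_lt_iff.mpr hw0) hw1.ne h1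
  have hpZ : Prime (p : ℤ) := Nat.prime_iff_prime_int.mp hp
  have h3 : (p : ℤ) ∣ (d : ℤ) * n := ⟨τ, by rw [← h2]; ring⟩
  have h4 : (p : ℤ) ∣ n := by
    rcases hpZ.dvd_or_dvd h3 with h | h
    · exact absurd (Int.natCast_dvd_natCast.mp h) hpd
    · exact h
  obtain ⟨n', rfl⟩ := h4
  have h5 : τ = (d : ℤ) * n' := by
    have hp0 : (p : ℤ) ≠ 0 := by exact_mod_cast hp.ne_zero
    apply mul_right_cancel₀ hp0
    rw [h2]; ring
  have h6 : A.valuation x = ν ^ (2 * n') := by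
    have e2 : ν ^ (2 : ℤ) = ν ^ 2 := by norm_cast
    rw [hτ, h5, zpow_mul, zpow_natCast, ← hΔv, zpow_mul, e2]
  rw [h6] at hgt'
  have hlt' : A.valuation x < 1 := hlt
  rw [h6] at hlt'
  exact not_between_zpow hν0 hν1 n' hgt' hlt'

/-! ### the Frey curve at `2` -/

open Fermat.Agent.S12.Start Fermat.Agent.MR.E

/-- `Δ = 2 ^ d * u`, `u` odd, `d > 0` prime to `p`. -/
theorem frey_Δ_two (P : FreyPackage) :
    ∃ (d : ℕ) (u : ℤ), P.freyCurveInt.Δ = ((2 : ℕ) : ℤ) ^ d * u ∧ ¬ ((2 : ℕ) : ℤ) ∣ u ∧ 0 < d ∧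
      ¬ P.p ∣ d := by
  have hfin : FiniteMultiplicity (2 : ℤ) (P.a * P.b * P.c) :=
    Int.finiteMultiplicity_iff.mpr ⟨by norm_num, P.habc0⟩
  obtain ⟨w, hw, hw2⟩ := hfin.exists_eq_pow_mul_and_not_dvd
  set e := multiplicity (2 : ℤ) (P.a * P.b * P.c) with he
  have he1 : 1 ≤ e := by
    by_contra h
    have h0 : e = 0 := by omega
    rw [h0, pow_zero, one_mul] at hw
    exact hw2 (hw ▸ P.two_dvd_abc)
  have hp5 := P.hp5
  have h8 : 8 ≤ 2 * P.p * e := by nlinarith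
  refine ⟨2 * P.p * e - 8, w ^ (2 * P.p), ?_, ?_, ?_, ?_⟩
  · have h1 := freyInt_Δ' P
    rw [hw, mul_pow, ← pow_mul] at h1
    have h2 : e * (2 * P.p) = (2 * P.p * e - 8) + 8 := by
      rw [Nat.sub_add_cancel h8]; ring
    rw [h2, pow_add] at h1
    have h3 : (256 : ℤ) ≠ 0 := by norm_num
    apply mul_right_cancel₀ h3
    rw [h1]
    push_cast
    ring
  · intro h
    have h2 : Prime (2 : ℤ) := Int.prime_two
    exact hw2 (h2.dvd_of_dvd_pow (by exact_mod_cast h))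
  · have : 10 ≤ 2 * P.p * e := by nlinarith
    omega
  · intro h
    have h1 : P.p ∣ 2 * P.p * e := ⟨2 * e, by ring⟩
    have h2 : P.p ∣ 8 := by
      have := (Nat.dvd_sub_iff_right h8 h1).mp h
      exact this
    have := Nat.le_of_dvd (by norm_num) h2
    have h3 : P.p = 5 ∨ P.p = 6 ∨ P.p = 7 ∨ P.p = 8 := by omega
    have hpp := P.pp
    rcases h3 with h3 | h3 | h3 | h3
    · rw [h3] at h2; exact absurd h2 (by decide)
    · rw [h3] at h2; exact absurd h2 (by decide)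
    · rw [h3] at h2; exact absurd h2 (by decide)
    · rw [h3] at hpp; exact absurd hpp (by decide)

/-- the statement on the integral model. -/
theorem ram2_int (P : FreyPackage) (A : ValuationSubring Qb) (hA : A.LiesOverPrime 2) :
    ∃ σ ∈ A.inertiaSubgroupIn ℚ, ∃ Q : EP P.freyCurveInt, P.p • Q = 0 ∧ σ • Q ≠ Q := by
  obtain ⟨d, u, hd, hu, hd0, hpd⟩ := frey_Δ_two P
  have hp5 := P.hp5
  exact exists_inertia_moves Nat.prime_two P.pp (by omega) (by omega) (freyInt_Δ_ne_zero P)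
    (not_dvd_c₄ P Nat.prime_two (by exact_mod_cast P.two_dvd_abc)) hA hd hu hd0 hpd

theorem unip2_int (P : FreyPackage) (A : ValuationSubring Qb) (hA : A.LiesOverPrime 2)
    (σ : GQ) (hσ : σ ∈ A.inertiaSubgroupIn ℚ) (Q : EP P.freyCurveInt) (hQ : P.p • Q = 0) :
    σ • (σ • Q - Q) = σ • Q - Q := by
  have hp5 := P.hp5
  have h2p : ¬ 2 ∣ P.p := by
    intro h
    have := (Nat.prime_dvd_prime_iff_eq Nat.prime_two P.pp).1 h
    omega
  have hM : Mult P.freyCurveInt A := mult_of Nat.prime_two (freyInt_Δ_ne_zero P)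
    (by exact_mod_cast two_dvd_Δ P)
    (not_dvd_c₄ P Nat.prime_two (by exact_mod_cast P.two_dvd_abc)) hA
  have hNv := val_natCast_eq_one Nat.prime_two hA h2p
  have hodd : Odd P.p := P.hp_odd
  exact inertia_fix hM hodd hNv hσ (by rw [nsmul_sub, smul_tors σ hQ, hQ, sub_zero])
    (inertia_sub hM hodd hNv hσ hQ)

/-- auxiliary predicates (to transport along `freyInt_map`). -/
def RamAt (W' : WeierstrassCurve ℚ) (p : ℕ) (A : ValuationSubring Qb) : Prop :=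
  ∃ σ ∈ A.inertiaSubgroupIn ℚ, ∃ Q : (W'⁄Qb).Point, p • Q = 0 ∧ σ • Q ≠ Q

def UnipAtPt (W' : WeierstrassCurve ℚ) (p : ℕ) (A : ValuationSubring Qb) : Prop :=
  ∀ σ ∈ A.inertiaSubgroupIn ℚ, ∀ Q : (W'⁄Qb).Point, p • Q = 0 → σ • (σ • Q - Q) = σ • Q - Q

theorem ramAt_frey (P : FreyPackage) (A : ValuationSubring Qb) (hA : A.LiesOverPrime 2) :
    RamAt P.freyCurve P.p A := by
  have h : RamAt (P.freyCurveInt.map (Int.castRingHom ℚ)) P.p A := ram2_int P A hA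
  rwa [freyInt_map] at h

theorem unipAtPt_frey (P : FreyPackage) (A : ValuationSubring Qb) (hA : A.LiesOverPrime 2) :
    UnipAtPt P.freyCurve P.p A := by
  have h : UnipAtPt (P.freyCurveInt.map (Int.castRingHom ℚ)) P.p A :=
    fun σ hσ Q hQ => unip2_int P A hA σ hσ Q hQ
  rwa [freyInt_map] at h

/-- **RAM2**, at every place over `2`. -/
theorem ram2_at (P : FreyPackage) (A : ValuationSubring Qb) (hA : A.LiesOverPrime 2) :
    ∃ σ ∈ A.inertiaSubgroupIn ℚ, ∃ x : Ep P, σ • x ≠ x := by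
  obtain ⟨σ, hσ, Q, hQ, hne⟩ := ramAt_frey P A hA
  refine ⟨σ, hσ, toEp P Q hQ, fun h => hne ?_⟩
  exact congrArg Subtype.val h

/-- **RAM2.** -/
theorem ram2 (P : FreyPackage) : ∃ A : ValuationSubring Qb, A.LiesOverPrime 2 ∧
    ∃ σ ∈ A.inertiaSubgroupIn ℚ, ∃ x : Ep P, σ • x ≠ x := by
  obtain ⟨A, hA⟩ := Lib.Frobenius.exists_liesOverPrime Qb Nat.prime_two
  exact ⟨A, hA, ram2_at P A hA⟩

/-- **UNIP2.** -/
theorem unip2 (P : FreyPackage) : ∀ A : ValuationSubring Qb, A.LiesOverPrime 2 →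
    ∀ σ ∈ A.inertiaSubgroupIn ℚ, ∀ x : Ep P, σ • (σ • x - x) = σ • x - x := by
  intro A hA σ hσ x
  exact Subtype.ext (unipAtPt_frey P A hA σ hσ x (Ep_nsmul P x))

end Fermat.Agent.S43.BigImg
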