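/-
S43 (route TWX0), block BIGIMG: ramification of `rho P = E[p] ⊗ 𝔽_{p²}` away from `p`.

* `rho_eq_one_iff`   : `(rho P).ρ σ = 1 ↔ σ` acts trivially on `E[p]`;
* `rho_unram`        : `rho P` is unramified at `q ∉ {2, p}` (S05);
* `rho_ram_two`      : `rho P` is ramified at `2` (RAM2);
* `hmin`             : `q ∈ {2, p} ↔ ¬ (rho P).IsUnramifiedAt q` for primes `q ≠ p`;
* `hunip`            : `tr = 2`, `det = 1` on inertia at the primes `q ≠ p` of `{2, p}`
  (both in the exact shape of `GWS.tw_strict'`).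
-/
import Fermat.Agent.S43.BigImg.Defs
import Fermat.Agent.S43.BigImg.Ram2
import Fermat.Agent.S43.GWS.Contract
import Fermat.Agent.S05

set_option autoImplicit false

noncomputable section

namespace Fermat.Agent.S43.BigImg

open WeierstrassCurve WeierstrassCurve.Affine WeierstrassCurve.Affine.Point
open Fermat.Agent.MR.E
open scoped TensorProduct

/-- `x ↦ 1 ⊗ x` is injective. -/
theorem one_tmul_injective (P : FreyPackage) {x y : Ep P}
    (h : (1 : kk P) ⊗ₜ[ZMod P.p] x = (1 : kk P) ⊗ₜ[ZMod P.p] y) :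
    x = y := by
  obtain ⟨g, hg⟩ := LinearMap.exists_leftInverse_of_injective
    (Algebra.linearMap (ZMod P.p) (kk P))
    (LinearMap.ker_eq_bot.2 (algebraMap (ZMod P.p) (kk P)).injective)
  have hg1 : g 1 = 1 := by
    have := LinearMap.congr_fun hg 1
    simpa using this
  have h2 := congrArg (fun t => TensorProduct.lid (ZMod P.p) (Ep P) (g.rTensor (Ep P) t)) h
  simp only [LinearMap.rTensor_tmul, TensorProduct.lid_tmul, hg1, one_smul] at h2
  exact h2

theorem rho_eq_one_iff (P : FreyPackage) (σ : GQ') :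
    (rho P).ρ σ = 1 ↔ ∀ x : Ep P, σ • x = x := by
  constructor
  · intro h x
    have h1 := LinearMap.congr_fun h ((1 : kk P) ⊗ₜ[ZMod P.p] (x : (rhoFp P).V))
    rw [rho_apply_tmul] at h1
    exact one_tmul_injective P h1
  · intro h
    refine TensorProduct.AlgebraTensorModule.curry_injective ?_
    refine LinearMap.ext fun c => LinearMap.ext fun (x : Ep P) => ?_
    show (rho P).ρ σ (c ⊗ₜ[ZMod P.p] (x : (rhoFp P).V)) = c ⊗ₜ[ZMod P.p] (x : (rhoFp P).V)
    rw [rho_apply_tmul P σ c x, h x]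

theorem rho_unram_iff (P : FreyPackage) (q : ℕ) :
    (rho P).IsUnramifiedAt q ↔ P.GaloisRepUnramifiedAt q := by
  constructor
  · intro h A hA σ hσ x
    exact (rho_eq_one_iff P σ).1 (h A hA σ hσ) x
  · intro h A hA σ hσ
    exact (rho_eq_one_iff P σ).2 (h A hA σ hσ)

theorem rho_unram (P : FreyPackage) {q : ℕ} (hq : q.Prime) (hq2 : q ≠ 2) (hqp : q ≠ P.p) :
    (rho P).IsUnramifiedAt q :=
  (rho_unram_iff P q).2 (Fermat.Agent.S05.result P hq hq2 hqp)

theorem rho_ram_two (P : FreyPackage) : ¬ (rho P).IsUnramifiedAt 2 := by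
  intro h
  obtain ⟨A, hA, σ, hσ, x, hx⟩ := ram2 P
  exact hx ((rho_eq_one_iff P σ).1 (h A hA σ hσ) x)

/-- `hmin` of `GWS.tw_strict'` for `Sram = {2, p}`. -/
theorem hmin (P : FreyPackage) :
    ∀ q : ℕ, q.Prime → q ≠ P.p →
      (q ∈ ({2, P.p} : Finset ℕ) ↔ ¬ (rho P).IsUnramifiedAt q) := by
  intro q hq hqp
  constructor
  · intro h
    rw [Finset.mem_insert, Finset.mem_singleton] at h
    rcases h with rfl | h
    · exact rho_ram_two P
    · exact absurd h hqp
  · intro h
    rw [Finset.mem_insert, Finset.mem_singleton]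
    by_contra hcon
    push Not at hcon
    exact h (rho_unram P hq hcon.1 hqp)

/-- a `2 × 2` matrix `M` with `(M - 1)² = 0` has trace `2` and determinant `1`. -/
theorem trace_det_of_unip {k : Type*} [Field k] (M : Matrix (Fin 2) (Fin 2) k)
    (h : (M - 1) * (M - 1) = 0) : M.trace = 2 ∧ M.det = 1 := by
  set N := M - 1 with hN
  have hM : M = 1 + N := by rw [hN]; abel
  have hnil : IsNilpotent N := ⟨2, by rw [sq]; exact h⟩
  have htr : N.trace = 0 := (Matrix.isNilpotent_trace_of_isNilpotent hnil).eq_zero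
  have hdet : N.det = 0 := by
    have h1 : N.det * N.det = 0 := by rw [← Matrix.det_mul, h, Matrix.det_zero]
    exact mul_self_eq_zero.1 h1
  rw [Matrix.trace_fin_two] at htr
  rw [Matrix.det_fin_two] at hdet
  constructor
  · rw [hM, Matrix.trace_fin_two]
    simp only [Matrix.add_apply, Matrix.one_apply_eq]
    linear_combination htr
  · rw [hM, Matrix.det_fin_two]
    simp only [Matrix.add_apply, Matrix.one_apply_eq, Matrix.one_apply_ne (show (0 : Fin 2) ≠ 1 by decide),
      Matrix.one_apply_ne (show (1 : Fin 2) ≠ 0 by decide)]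
    linear_combination htr + hdet

/-- unipotent on `E[p]` implies unipotent on `E[p] ⊗ 𝔽_{p²}`. -/
theorem rho_unip (P : FreyPackage) (σ : GQ')
    (h : ∀ x : Ep P, σ • (σ • x - x) = σ • x - x) :
    ((rho P).ρ σ - 1) * ((rho P).ρ σ - 1) = 0 := by
  refine TensorProduct.AlgebraTensorModule.curry_injective ?_
  refine LinearMap.ext fun c => LinearMap.ext fun (x : Ep P) => ?_
  show ((rho P).ρ σ - 1) (((rho P).ρ σ - 1) (c ⊗ₜ[ZMod P.p] (x : (rhoFp P).V))) = 0
  have h1 : ((rho P).ρ σ - 1) (c ⊗ₜ[ZMod P.p] (x : (rhoFp P).V)) =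
      c ⊗ₜ[ZMod P.p] (((σ • x - x : Ep P)) : (rhoFp P).V) := by
    rw [LinearMap.sub_apply, Module.End.one_apply, rho_apply_tmul P σ c x]
    exact (TensorProduct.tmul_sub c (σ • x : Ep P) x).symm
  rw [h1, LinearMap.sub_apply, Module.End.one_apply]
  have h2 := rho_apply_tmul P σ c (σ • x - x)
  rw [h x] at h2
  exact sub_eq_zero.2 h2

theorem trace_det_of_unip_rho (P : FreyPackage) (σ : GQ')
    (h : ∀ x : Ep P, σ • (σ • x - x) = σ • x - x) :
    (S56.C.rm (S56.T.matRep (rho P)) σ).trace = 2 ∧ (S56.C.rm (S56.T.matRep (rho P)) σ).det = 1 := by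
  apply trace_det_of_unip
  rw [S56.C.rm, S56.T.coe_matRep]
  have h1 := congrArg (LinearMap.toMatrixAlgEquiv (S56.T.bas (rho P))) (rho_unip P σ h)
  rw [map_mul, map_sub, map_one, _root_.map_zero] at h1
  exact h1

/-- `hunip` of `GWS.tw_strict'` for `Sram = {2, p}`. -/
theorem hunip (P : FreyPackage) :
    ∀ q ∈ ({2, P.p} : Finset ℕ), q.Prime → q ≠ P.p →
      ∀ A : ValuationSubring (AlgebraicClosure ℚ), A.LiesOverPrime q →
        ∀ σ ∈ A.inertiaSubgroupIn ℚ,
          (S56.C.rm (S56.T.matRep (rho P)) σ).trace = 2 ∧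
            (S56.C.rm (S56.T.matRep (rho P)) σ).det = 1 := by
  intro q hq _ hqp A hA σ hσ
  rw [Finset.mem_insert, Finset.mem_singleton] at hq
  rcases hq with rfl | hq
  · exact trace_det_of_unip_rho P σ (unip2 P A hA σ hσ)
  · exact absurd hq hqp

end Fermat.Agent.S43.BigImg

end
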