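/-
S43 (route TWX), block BIGIMG, leaf (SC): a prime `q` at which `E[p]` is unramified and ONE Frobenius element acts by a
scalar is a "scalar prime": every element of every decomposition group above `q` acts by a scalar.

* `scalar_dec_of_frob` : at the place `A` of the Frobenius element;
* `scalar_dec_all`     : at all places above `q` (conjugation);
* `scalarAt_of_frob`   : `GWS.ScalarAt (S56.T.matRep (rho P)) q`.
-/
import Fermat.Agent.S43.BigImg.Defs
import Fermat.Agent.S43.GWS.Contract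
import Fermat.Agent.S43.Loc.Gen
import Fermat.Agent.S56.F.LF.FrobEll
import Fermat.Agent.S56.T.AllFrob

set_option autoImplicit false

noncomputable section

namespace Fermat.Agent.S43.BigImg

open WeierstrassCurve WeierstrassCurve.Affine WeierstrassCurve.Affine.Point
open Fermat.Agent.MR.E
open scoped TensorProduct Pointwise

/-- powers of an element acting by a scalar. -/
theorem pow_smul_eq_of_scalar (P : FreyPackage) (φ : GQ') (e : ZMod P.p)
    (he : ∀ x : Ep P, φ • x = e • x) (j : ℕ) (x : Ep P) : (φ ^ j) • x = (e ^ j) • x := by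
  induction j generalizing x with
  | zero => simp
  | succ j ih =>
    rw [pow_succ, mul_smul, he, pow_succ, mul_smul]
    have h1 : (φ ^ j) • (e • x) = e • ((φ ^ j) • x) := by
      rw [ih, ih, smul_comm]
    rw [h1, ih, smul_comm]

/-- **(SC), at one place.** -/
theorem scalar_dec_of_frob (P : FreyPackage) {q : ℕ} (hq : q.Prime)
    (A : ValuationSubring (AlgebraicClosure ℚ)) (hA : A.LiesOverPrime q)
    (hunr : ∀ τ ∈ A.inertiaSubgroupIn ℚ, ∀ x : Ep P, τ • x = x)
    (φ : GQ') (hφ : A.IsFrobeniusAt φ q) (e : ZMod P.p) (he : ∀ x : Ep P, φ • x = e • x) :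
    ∀ σ ∈ A.decompositionSubgroup ℚ, ∃ a : ZMod P.p, ∀ x : Ep P, σ • x = a • x := by
  intro σ hσ
  obtain ⟨M, hM, hfix⟩ := S13.frey_exists_field_of_def P
  let Pl : PT.Local.Plc := ⟨A, q, hq, hA⟩
  have hF : PT.Local.IsFrob Pl Pl.ℓ φ := Loc.isFrob_of_isFrobeniusAt Pl hφ
  obtain ⟨j, τ, hτ, u, -, hu, rfl⟩ := S56.F.LF.dec_gen Pl hF M (σ := σ) hσ
  refine ⟨e ^ j, fun x => ?_⟩
  have h1 : u • x = x := hfix u ((IntermediateField.mem_fixingSubgroup_iff _ u).2 hu) x
  rw [mul_smul, mul_smul, h1, hunr τ hτ x]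
  exact pow_smul_eq_of_scalar P φ e he j x

/-- **(SC), at all places above `q`.** -/
theorem scalar_dec_all (P : FreyPackage) {q : ℕ} (hq : q.Prime) (hunr : P.GaloisRepUnramifiedAt q)
    (A : ValuationSubring (AlgebraicClosure ℚ)) (hA : A.LiesOverPrime q)
    (φ : GQ') (hφ : A.IsFrobeniusAt φ q) (e : ZMod P.p) (he : ∀ x : Ep P, φ • x = e • x) :
    ∀ A' : ValuationSubring (AlgebraicClosure ℚ), A'.LiesOverPrime q →
      ∀ σ ∈ A'.decompositionSubgroup ℚ, ∃ a : ZMod P.p, ∀ x : Ep P, σ • x = a • x := by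
  intro A' hA'
  obtain ⟨g, rfl⟩ := PT.exists_smul_eq_of_liesOverPrime hq A A' hA hA'
  refine scalar_dec_of_frob P hq (g • A) hA' (hunr _ hA') (g * φ * g⁻¹)
    (S56.T.isFrobeniusAt_conj hφ g) e (fun x => ?_)
  rw [mul_smul, mul_smul, he]
  have h1 : g • (e • (g⁻¹ • x)) = e • (g • (g⁻¹ • x)) := by
    obtain ⟨n, rfl⟩ := ZMod.natCast_zmod_surjective e
    rw [Nat.cast_smul_eq_nsmul, Nat.cast_smul_eq_nsmul, smul_comm]
  rw [h1, smul_inv_smul]

/-- a scalar on `E[p]` is a scalar on `E[p] ⊗ 𝔽_{p²}`. -/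
theorem rho_eq_smul_one (P : FreyPackage) (σ : GQ') (a : ZMod P.p)
    (h : ∀ x : Ep P, σ • x = a • x) :
    (rho P).ρ σ = (algebraMap (ZMod P.p) (kk P) a) • (1 : Module.End (kk P) (rho P).V) := by
  have h1 : (rhoFp P).ρ σ = a • (1 : Module.End (ZMod P.p) (rhoFp P).V) := by
    refine LinearMap.ext fun x => ?_
    exact h x
  rw [rho_apply, h1]
  refine TensorProduct.AlgebraTensorModule.curry_injective ?_
  refine LinearMap.ext fun c => LinearMap.ext fun x => ?_
  show c ⊗ₜ[ZMod P.p] (a • x) = (algebraMap (ZMod P.p) (kk P) a) • (c ⊗ₜ[ZMod P.p] x)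
  rw [TensorProduct.tmul_smul, algebraMap_smul]

/-- **(SC)** in the shape of `GWS.tw_strict'`. -/
theorem scalarAt_of_frob (P : FreyPackage) {q : ℕ} (hq : q.Prime) (hunr : P.GaloisRepUnramifiedAt q)
    (A : ValuationSubring (AlgebraicClosure ℚ)) (hA : A.LiesOverPrime q)
    (φ : GQ') (hφ : A.IsFrobeniusAt φ q) (e : ZMod P.p) (he : ∀ x : Ep P, φ • x = e • x) :
    GWS.ScalarAt (S56.T.matRep (rho P)) q := by
  refine GWS.scalarAt_matRep (rho P) q (fun A' hA' σ hσ => ?_)
  obtain ⟨a, ha⟩ := scalar_dec_all P hq hunr A hA φ hφ e he A' hA' σ hσ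
  exact ⟨_, rho_eq_smul_one P σ a ha⟩

end Fermat.Agent.S43.BigImg

end
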