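/-
S43 (route TWX), block BIGIMG: EXPORT (unconditional, sorry-free).

All hypotheses of `GWS.tw_strict'` / `GWS.tw_strict_full` (= those of S56) for `rho P = E[p] ⊗ 𝔽_{p²}`, `Sram = {2, p}`:
* `habs_frey`, `hTW_frey` (Irr.lean + Ram2.lean), `hdet` (Det.lean), `hsplit` (Split.lean), `hmin`, `hunip` (Ram.lean), `hsq_frey`,
  `scalarAt_of_frob` (Scalar.lean);
* `tw_frey`, `tw_frey_full` : the conclusions of `GWS.tw_strict'`, `GWS.tw_strict_full` for `rho P`.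
-/
import Fermat.Agent.S43.BigImg.Irr
import Fermat.Agent.S43.BigImg.Det
import Fermat.Agent.S43.BigImg.Ram
import Fermat.Agent.S43.BigImg.Scalar
import Fermat.Agent.S43.GWS.Full

set_option autoImplicit false

noncomputable section

namespace Fermat.Agent.S43.BigImg

open WeierstrassCurve WeierstrassCurve.Affine WeierstrassCurve.Affine.Point
open Fermat.Agent.MR.E
open Fermat.Agent.S53 (G M2)
open Fermat.Agent.S56
open Fermat.Agent.S56.C (ad rm IsCoc IsCob liftMat)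
open Polynomial Matrix
open scoped TensorProduct

theorem hasUnip (P : FreyPackage) : HasUnip P := by
  obtain ⟨A, hA, σ, hσ, hx⟩ := ram2 P
  exact ⟨σ, hx, unip2 P A hA σ hσ⟩

theorem habs_frey (P : FreyPackage)
    (hirr : GaloisRepIsIrreducible (K := AlgebraicClosure ℚ) ℚ P.freyCurve P.p) :
    (rho P).IsAbsolutelyIrreducible := habs P hirr (hasUnip P)

theorem hTW_frey (P : FreyPackage)
    (hirr : GaloisRepIsIrreducible (K := AlgebraicClosure ℚ) ℚ P.freyCurve P.p)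
    (K : Type) [Field K] [Algebra (kk P) K] (H : Subgroup GQ') (hH : H.index = 2)
    (V : Submodule K ((rho P).baseChange K).V)
    (hV : ∀ σ ∈ H, ∀ x ∈ V, ((rho P).baseChange K).ρ σ x ∈ V) : V = ⊥ ∨ V = ⊤ :=
  hTW P hirr (hasUnip P) K H hH V hV

theorem hsq_frey (P : FreyPackage) : ∀ q ∈ ({2, P.p} : Finset ℕ), q.Prime → q ≠ P.p →
    ((q : ZMod P.p)) * ((q : ZMod P.p)) ≠ 1 := by
  intro q hq _ hqp
  rw [Finset.mem_insert, Finset.mem_singleton] at hq
  rcases hq with rfl | hq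
  · intro h
    have h3 : ((3 : ℕ) : ZMod P.p) = 0 := by
      push_cast at h ⊢
      linear_combination h
    rw [ZMod.natCast_eq_zero_iff] at h3
    have := Nat.le_of_dvd (by norm_num) h3
    have := P.hp5
    omega
  · exact absurd hq hqp

theorem sram_subset (P : FreyPackage) {S : Finset ℕ} (h2S : 2 ∈ S) (hpS : P.p ∈ S) :
    ({2, P.p} : Finset ℕ) ⊆ S := by
  intro q hq
  rw [Finset.mem_insert, Finset.mem_singleton] at hq
  rcases hq with rfl | rfl
  · exact h2S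
  · exact hpS

theorem sram_disjoint (P : FreyPackage) {Sstr : Finset ℕ} (hne2 : 2 ∉ Sstr) (hnep : P.p ∉ Sstr) :
    Disjoint ({2, P.p} : Finset ℕ) Sstr := by
  rw [Finset.disjoint_left]
  intro q hq
  rw [Finset.mem_insert, Finset.mem_singleton] at hq
  rcases hq with rfl | rfl
  · exact hne2
  · exact hnep

/-- **EXPORT of BIGIMG** (`GWS.tw_strict'` for the Frey representation). -/
theorem tw_frey (P : FreyPackage)
    (hirr : GaloisRepIsIrreducible (K := AlgebraicClosure ℚ) ℚ P.freyCurve P.p)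
    (S Sstr : Finset ℕ) (h2S : 2 ∈ S) (hpS : P.p ∈ S)
    (hSstr : Sstr ⊆ S) (hprime : ∀ q ∈ Sstr, q.Prime) (hne2 : 2 ∉ Sstr) (hnep : P.p ∉ Sstr)
    (hscal : ∀ q ∈ Sstr, GWS.ScalarAt (T.matRep (rho P)) q) :
    ∃ n₀ : ℕ, 3 * Sstr.card ≤ n₀ ∧ ∀ n : ℕ, ∃ qv : Fin n₀ → ℕ, Function.Injective qv ∧
      (∀ i, (qv i).Prime ∧ qv i ∉ S ∧ P.p ^ (n + 1) ∣ qv i - 1) ∧
      (∀ i, ∀ A : ValuationSubring (AlgebraicClosure ℚ), A.LiesOverPrime (qv i) →
        ∀ φ : G, A.IsFrobeniusAt φ (qv i) →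
          ∃ α β : kk P, α ≠ β ∧ LinearMap.charpoly ((rho P).ρ φ) = (X - C α) * (X - C β)) ∧
      ∃ T₁ : Finset (G → M2 (kk P)), T₁.card ≤ Nat.card (kk P) ^ (n₀ - 3 * Sstr.card) ∧
        (∃ t ∈ T₁, IsCob (T.matRep (rho P)) t) ∧
        ∀ c, IsCoc (T.matRep (rho P)) c → C.Smooth c → C.TraceZero c →
          (∀ q : ℕ, q.Prime → q ∉ ({2, P.p} : Finset ℕ) ∪ Sstr ∪ Finset.univ.image qv →
            C.UnramAt c q) →
          C.FlatAt (T.matRep (rho P)) c P.p →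
          (∀ q ∈ ({2, P.p} : Finset ℕ), q.Prime → q ≠ P.p → C.UnipAt (T.matRep (rho P)) c q) →
          (∀ q ∈ Sstr, GWS.StrictAt c q) →
          ∃ t ∈ T₁, IsCob (T.matRep (rho P)) (c - t) :=
  GWS.tw_strict' P.p (by have := P.hp5; omega) (rho P) (habs_frey P hirr) (hdet P hirr) (hsplit P)
    (fun K _ _ H hH V hV => hTW_frey P hirr K H hH V hV) S {2, P.p} Sstr
    (by simp) (sram_subset P h2S hpS) hSstr (sram_disjoint P hne2 hnep) hprime (hmin P) (hunip P) hscal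

/-- **EXPORT of BIGIMG, final form** (`GWS.tw_strict_full` for the Frey representation: NO condition at `2`). -/
theorem tw_frey_full (P : FreyPackage)
    (hirr : GaloisRepIsIrreducible (K := AlgebraicClosure ℚ) ℚ P.freyCurve P.p)
    (S Sstr : Finset ℕ) (h2S : 2 ∈ S) (hpS : P.p ∈ S)
    (hSstr : Sstr ⊆ S) (hprime : ∀ q ∈ Sstr, q.Prime) (hne2 : 2 ∉ Sstr) (hnep : P.p ∉ Sstr)
    (hscal : ∀ q ∈ Sstr, GWS.ScalarAt (T.matRep (rho P)) q) :
    ∃ n₀ : ℕ, 3 * Sstr.card ≤ n₀ ∧ ∀ n : ℕ, ∃ qv : Fin n₀ → ℕ, Function.Injective qv ∧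
      (∀ i, (qv i).Prime ∧ qv i ∉ S ∧ P.p ^ (n + 1) ∣ qv i - 1) ∧
      (∀ i, ∀ A : ValuationSubring (AlgebraicClosure ℚ), A.LiesOverPrime (qv i) →
        ∀ φ : G, A.IsFrobeniusAt φ (qv i) →
          ∃ α β : kk P, α ≠ β ∧ LinearMap.charpoly ((rho P).ρ φ) = (X - C α) * (X - C β)) ∧
      ∃ T₁ : Finset (G → M2 (kk P)), T₁.card ≤ Nat.card (kk P) ^ (n₀ - 3 * Sstr.card) ∧
        (∃ t ∈ T₁, IsCob (T.matRep (rho P)) t) ∧
        ∀ c, IsCoc (T.matRep (rho P)) c → C.Smooth c → C.TraceZero c →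
          (∀ q : ℕ, q.Prime → q ∉ ({2, P.p} : Finset ℕ) ∪ Sstr ∪ Finset.univ.image qv →
            C.UnramAt c q) →
          C.FlatAt (T.matRep (rho P)) c P.p →
          (∀ q ∈ Sstr, GWS.StrictAt c q) →
          ∃ t ∈ T₁, IsCob (T.matRep (rho P)) (c - t) :=
  GWS.tw_strict_full P.p (by have := P.hp5; omega) (rho P) (habs_frey P hirr) (hdet P hirr) (hsplit P)
    (fun K _ _ H hH V hV => hTW_frey P hirr K H hH V hV) S {2, P.p} Sstr
    (by simp) (sram_subset P h2S hpS) hSstr (sram_disjoint P hne2 hnep) hprime (hmin P) (hunip P)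
    (hsq_frey P) hscal

end Fermat.Agent.S43.BigImg

end
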