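import Fermat.Agent.S43.BigImg.Defs
import Fermat.Agent.S43.BigImg.Ram2
import Fermat.Agent.S05
import Fermat.Agent.S56.T.Mat
import Fermat.Agent.S56.C.Defs

/-!
# S43 / BIGIMG : `hmin`, `hunip`, `hsq` for `rho P` (shapes of `GWS.tw_strict_full`, `Sram = {2, p}`)
-/

set_option autoImplicit false

noncomputable section

namespace Fermat.Agent.S43.BigImg.MinSix

open Fermat.Agent.MR.E Fermat.Agent.S56 Fermat.Agent.S56.C
open scoped TensorProduct

/-- a `2 × 2` matrix with `(M - 1)² = 0` has trace `2` and determinant `1`. -/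
theorem tr_det_of_sq_zero {k : Type*} [Field k] (M : Matrix (Fin 2) (Fin 2) k)
    (h : (M - 1) * (M - 1) = 0) : M.trace = 2 ∧ M.det = 1 := by
  have h00 := congrFun (congrFun h 0) 0
  have h01 := congrFun (congrFun h 0) 1
  have h10 := congrFun (congrFun h 1) 0
  have h11 := congrFun (congrFun h 1) 1
  simp only [Matrix.mul_apply, Fin.sum_univ_two, Matrix.sub_apply, Matrix.one_apply_eq,
    Matrix.zero_apply] at h00 h01 h10 h11
  have e01 : (1 : Matrix (Fin 2) (Fin 2) k) 0 1 = 0 := Matrix.one_apply_ne (by decide)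
  have e10 : (1 : Matrix (Fin 2) (Fin 2) k) 1 0 = 0 := Matrix.one_apply_ne (by decide)
  simp only [e01, e10] at h00 h01 h10 h11
  set a := M 0 0 - 1 with ha
  set d := M 1 1 - 1 with hd
  set b := M 0 1 with hb
  set c := M 1 0 with hc
  simp only [sub_zero] at h00 h01 h10 h11
  have had : a + d = 0 := by
    by_contra hne
    have hb0 : b = 0 := by
      have : b * (a + d) = 0 := by linear_combination h01
      exact (mul_eq_zero.mp this).resolve_right hne
    have ha0 : a = 0 := by
      rw [hb0] at h00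
      have : a * a = 0 := by linear_combination h00
      exact mul_self_eq_zero.mp this
    have hd0 : d = 0 := by
      rw [hb0] at h11
      have : d * d = 0 := by linear_combination h11
      exact mul_self_eq_zero.mp this
    exact hne (by rw [ha0, hd0, add_zero])
  constructor
  · rw [Matrix.trace_fin_two]
    linear_combination had
  · rw [Matrix.det_fin_two]
    have e1 : M 0 0 = a + 1 := by rw [ha]; ring
    have e2 : M 1 1 = d + 1 := by rw [hd]; ring
    rw [e1, e2]
    have hd' : d = -a := by linear_combination had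
    rw [hd']
    linear_combination -h00

theorem rho_unram (P : FreyPackage) {q : ℕ} (hq : q.Prime) (hq2 : q ≠ 2) (hqp : q ≠ P.p) :
    (rho P).IsUnramifiedAt q := by
  intro A hA σ hσ
  have h1 : (rhoFp P).ρ σ = 1 := by
    refine LinearMap.ext fun x => ?_
    exact S05.result P hq hq2 hqp A hA σ hσ x
  rw [rho_apply, h1, LinearMap.baseChange_one]

theorem rho_ram_two (P : FreyPackage) : ¬ (rho P).IsUnramifiedAt 2 := by
  intro h
  obtain ⟨A, hA, σ, hσ, x, hx⟩ := ram2 P
  have h1 := h A hA σ hσ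
  have h2 := LinearMap.congr_fun h1 ((1 : kk P) ⊗ₜ[ZMod P.p] (x : (rhoFp P).V))
  rw [rho_apply_tmul] at h2
  have h3 : (1 : kk P) ⊗ₜ[ZMod P.p] (σ • x : Ep P) = (1 : kk P) ⊗ₜ[ZMod P.p] x := h2
  exact hx (Module.FaithfullyFlat.tensorProduct_mk_injective (A := ZMod P.p) (B := kk P)
    (Ep P) h3)

/-- **hmin.** -/
theorem hmin (P : FreyPackage) : ∀ q : ℕ, q.Prime → q ≠ P.p →
    (q ∈ ({2, P.p} : Finset ℕ) ↔ ¬ (rho P).IsUnramifiedAt q) := by
  intro q hq hqp
  constructor
  · intro h
    rw [Finset.mem_insert, Finset.mem_singleton] at h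
    rcases h with rfl | h
    · exact rho_ram_two P
    · exact absurd h hqp
  · intro h
    by_contra hq2
    rw [Finset.mem_insert, Finset.mem_singleton, not_or] at hq2
    exact h (rho_unram P hq hq2.1 hqp)

theorem rho_sq_zero (P : FreyPackage) (A : ValuationSubring (AlgebraicClosure ℚ))
    (hA : A.LiesOverPrime 2) (σ : GQ') (hσ : σ ∈ A.inertiaSubgroupIn ℚ) :
    ((rho P).ρ σ - 1) * ((rho P).ρ σ - 1) = 0 := by
  have h1 : ((rhoFp P).ρ σ - 1) * ((rhoFp P).ρ σ - 1) = 0 := by
    refine LinearMap.ext fun x => ?_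
    have := unip2 P A hA σ hσ x
    exact sub_eq_zero.mpr this
  have key : (((rhoFp P).ρ σ).baseChange (kk P) - 1) * (((rhoFp P).ρ σ).baseChange (kk P) - 1) =
      (0 : Module.End (kk P) (kk P ⊗[ZMod P.p] (rhoFp P).V)) := by
    have h2 : ((rhoFp P).ρ σ).baseChange (kk P) - 1 = ((rhoFp P).ρ σ - 1).baseChange (kk P) := by
      rw [LinearMap.baseChange_sub, LinearMap.baseChange_one]
    rw [h2, ← LinearMap.baseChange_mul, h1, LinearMap.baseChange_zero]
  exact key

/-- **hunip.** -/
theorem hunip (P : FreyPackage) : ∀ q ∈ ({2, P.p} : Finset ℕ), q.Prime → q ≠ P.p →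
    ∀ A : ValuationSubring (AlgebraicClosure ℚ), A.LiesOverPrime q →
      ∀ σ ∈ A.inertiaSubgroupIn ℚ,
        (rm (T.matRep (rho P)) σ).trace = 2 ∧ (rm (T.matRep (rho P)) σ).det = 1 := by
  intro q hq _ hqp A hA σ hσ
  rw [Finset.mem_insert, Finset.mem_singleton] at hq
  rcases hq with rfl | hq
  · apply tr_det_of_sq_zero
    have h := rho_sq_zero P A hA σ hσ
    have h2 := congrArg (LinearMap.toMatrixAlgEquiv (T.bas (rho P))) h
    rw [map_mul, map_sub, map_one, map_zero] at h2
    exact h2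
  · exact absurd hq hqp

/-- **hsq.** -/
theorem hsq (P : FreyPackage) : ∀ q ∈ ({2, P.p} : Finset ℕ), q.Prime → q ≠ P.p →
    ((q : ZMod P.p)) * ((q : ZMod P.p)) ≠ 1 := by
  intro q hq _ hqp
  rw [Finset.mem_insert, Finset.mem_singleton] at hq
  rcases hq with rfl | hq
  · intro h
    have h3 : ((3 : ℕ) : ZMod P.p) = 0 := by
      push_cast at h ⊢
      linear_combination h
    rw [ZMod.natCast_eq_zero_iff] at h3
    have := Nat.le_of_dvd (by norm_num) h3
    have := P.hp5
    omega
  · exact absurd hq hqp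

end Fermat.Agent.S43.BigImg.MinSix

end
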