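import Fermat.Agent.S58.LocM.Abs.Main
import Fermat.Agent.S05.ClaimB

/-!
# S43 / BIGIMG / RAM2 : the tent relation at a multiplicative prime, all residue characteristics

Abstract framework of `S58/LocM` (`IsWC`, `IsNodal`, `IsTors`).  `ν ^ 2 = v(Δ)`.
For a point `P` of odd prime order `p` of node type (`v (X P) < 1`):
`v (X P) ^ p = ν ^ (2 n)` for some integer `n`, and `ν < v (X P) < 1`.
(Port of `S05/ValLemmas`, `S05/ClaimB`, which need `v 2 = 1`.)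
-/

set_option autoImplicit false
set_option linter.unusedSectionVars false
set_option linter.unusedVariables false

namespace Fermat.Agent.S43.BigImg

open Fermat.Agent.S05 Fermat.Agent.S58.LocM

variable {G : Type*} [AddCommGroup G] {K : Type*} [Field K]
  {Γ₀ : Type*} [LinearOrderedCommGroupWithZero Γ₀]
  {v : Valuation K Γ₀} {V : WeierstrassCurve K} {X Z : G → K} {ν : Γ₀} {T : AddSubgroup G}

lemma nu_pos (hN : IsNodal v V (ν ^ 2)) : 0 < ν := by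
  have := hN.pos
  by_contra h
  have h0 : ν = 0 := le_antisymm (not_lt.mp h) zero_le
  rw [h0] at this
  simp at this

lemma nu_lt_one (hN : IsNodal v V (ν ^ 2)) : ν < 1 := by
  by_contra h
  push Not at h
  have : (1 : Γ₀) ≤ ν ^ 2 := one_le_pow₀ h
  exact absurd hN.lt_one (not_lt.mpr this)

lemma sq_lt_mul {a b : Γ₀} (ha : ν < a) (hb : ν < b) : ν ^ 2 < a * b := by
  rw [sq]; exact mul_lt_mul'' ha hb zero_le zero_le

/-- valuation of the numerator of the sum formula. -/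
lemma T_sum (hN : IsNodal v V (ν ^ 2)) {x y : K} (hx : ν < v x) (hx1 : v x < 1) (hy : ν < v y)
    (hy1 : v y < 1) :
    v (2 * (x + y) * (x * y) + V.b₂ * (x * y) + V.b₄ * (x + y) + V.b₆) = v x * v y := by
  have hlt := sq_lt_mul hx hy
  have hpos : 0 < v x * v y := lt_of_le_of_lt zero_le hlt
  have hs1 : v (x + y) < 1 := lt1_add v hx1 hy1
  have h1 : v (V.b₂ * (x * y)) = v x * v y := by rw [map_mul, hN.b₂, one_mul, map_mul]
  have h2 : v (2 * (x + y) * (x * y)) < v x * v y := by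
    rw [map_mul v (2 * (x + y)) (x * y), map_mul v x y]
    have h3 : v (2 * (x + y)) < 1 := lt1_mul_right v (le1_ofNat v 2) hs1
    calc v (2 * (x + y)) * (v x * v y) < 1 * (v x * v y) := by gcongr
      _ = v x * v y := one_mul _
  have h3 : v (V.b₄ * (x + y)) < v x * v y := by
    rw [map_mul]
    calc v V.b₄ * v (x + y) ≤ ν ^ 2 * 1 := mul_le_mul' hN.b₄ hs1.le
      _ = ν ^ 2 := mul_one _
      _ < v x * v y := hlt
  have h4 : v V.b₆ < v x * v y := lt_of_le_of_lt hN.b₆ hlt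
  have e : 2 * (x + y) * (x * y) + V.b₂ * (x * y) + V.b₄ * (x + y) + V.b₆
      = V.b₂ * (x * y) + (2 * (x + y) * (x * y) + V.b₄ * (x + y) + V.b₆) := by ring
  rw [e, Valuation.map_add_eq_of_lt_left v, h1]
  rw [h1]
  exact Valuation.map_add_lt v (Valuation.map_add_lt v h2 h3) h4

/-- the three small terms of the numerator of the product formula. -/
lemma T_small (hN : IsNodal v V (ν ^ 2)) {x y : K} (hx1 : v x < 1) (hy1 : v y < 1) :
    v (V.b₄ * (x * y) + V.b₆ * (x + y)) < ν ^ 2 := by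
  have hpos := hN.pos
  apply Valuation.map_add_lt
  · rw [map_mul, map_mul]
    have : v x * v y < 1 := mul_lt_one_of_nonneg_of_lt_one_left zero_le hx1 hy1.le
    calc v V.b₄ * (v x * v y) ≤ ν ^ 2 * (v x * v y) := by gcongr; exact hN.b₄
      _ < ν ^ 2 * 1 := by gcongr
      _ = ν ^ 2 := mul_one _
  · rw [map_mul]
    have : v (x + y) < 1 := lt1_add v hx1 hy1
    calc v V.b₆ * v (x + y) ≤ ν ^ 2 * v (x + y) := by gcongr; exact hN.b₆
      _ < ν ^ 2 * 1 := by gcongr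
      _ = ν ^ 2 := mul_one _

lemma T_prod_gt (hN : IsNodal v V (ν ^ 2)) {x y : K} (hx1 : v x < 1) (hy1 : v y < 1)
    (h : ν < v x * v y) :
    v (x ^ 2 * y ^ 2 - V.b₄ * (x * y) - V.b₆ * (x + y) - V.b₈) = (v x * v y) ^ 2 := by
  have h2 : ν ^ 2 < (v x * v y) ^ 2 := pow_lt_pow_left₀ h zero_le (by norm_num)
  have h1 : v (x ^ 2 * y ^ 2) = (v x * v y) ^ 2 := by
    rw [map_mul, map_pow, map_pow, mul_pow]
  have e : x ^ 2 * y ^ 2 - V.b₄ * (x * y) - V.b₆ * (x + y) - V.b₈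
      = x ^ 2 * y ^ 2 - ((V.b₄ * (x * y) + V.b₆ * (x + y)) + V.b₈) := by ring
  rw [e, Valuation.map_sub_eq_of_lt_left v, h1]
  rw [h1]
  exact Valuation.map_add_lt v ((T_small hN hx1 hy1).trans h2) (by rw [hN.b₈]; exact h2)

lemma T_prod_lt (hN : IsNodal v V (ν ^ 2)) {x y : K} (hx1 : v x < 1) (hy1 : v y < 1)
    (h : v x * v y < ν) :
    v (x ^ 2 * y ^ 2 - V.b₄ * (x * y) - V.b₆ * (x + y) - V.b₈) = ν ^ 2 := by
  have h2 : (v x * v y) ^ 2 < ν ^ 2 := pow_lt_pow_left₀ h zero_le (by norm_num)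
  have h1 : v (x ^ 2 * y ^ 2) = (v x * v y) ^ 2 := by
    rw [map_mul, map_pow, map_pow, mul_pow]
  have e : x ^ 2 * y ^ 2 - V.b₄ * (x * y) - V.b₆ * (x + y) - V.b₈
      = (x ^ 2 * y ^ 2 - (V.b₄ * (x * y) + V.b₆ * (x + y))) - V.b₈ := by ring
  rw [e, Valuation.map_sub_eq_of_lt_right v, hN.b₈]
  rw [hN.b₈]
  exact Valuation.map_sub_lt v (by rw [h1]; exact h2) (T_small hN hx1 hy1)

lemma T_prod_le (hN : IsNodal v V (ν ^ 2)) {x y : K} (hx1 : v x < 1) (hy1 : v y < 1)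
    (h : v x * v y = ν) :
    v (x ^ 2 * y ^ 2 - V.b₄ * (x * y) - V.b₆ * (x + y) - V.b₈) ≤ ν ^ 2 := by
  have h1 : v (x ^ 2 * y ^ 2) = ν ^ 2 := by
    rw [map_mul, map_pow, map_pow, ← mul_pow, h]
  have e : x ^ 2 * y ^ 2 - V.b₄ * (x * y) - V.b₆ * (x + y) - V.b₈
      = (x ^ 2 * y ^ 2 - (V.b₄ * (x * y) + V.b₆ * (x + y))) - V.b₈ := by ring
  rw [e]
  exact Valuation.map_sub_le v (Valuation.map_sub_le v h1.le (T_small hN hx1 hy1).le) hN.b₈.le

/-- injectivity of the valuation. -/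
lemma T_inj (hN : IsNodal v V (ν ^ 2)) {x y r₁ r₂ : K}
    (hx : ν < v x) (hx1 : v x < 1) (hy : ν < v y) (hy1 : v y < 1)
    (hr₁ : v r₁ < 1) (hr₂ : v r₂ < 1)
    (hadd : (r₁ + r₂) * (x - y) ^ 2 =
      2 * (x + y) * (x * y) + V.b₂ * (x * y) + V.b₄ * (x + y) + V.b₆) : v x ≠ v y := by
  intro hxy
  have h1 := T_sum hN hx hx1 hy hy1
  rw [← hadd, map_mul, map_pow, ← hxy] at h1
  have hx0 : 0 < v x := lt_of_le_of_lt zero_le hx
  have h3 : v (x - y) ≤ v x := Valuation.map_sub_le v le_rfl hxy.symm.le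
  have h4 : v (r₁ + r₂) < 1 := lt1_add v hr₁ hr₂
  have hx02 : 0 < v x ^ 2 := pow_pos hx0 2
  have h5 : v (r₁ + r₂) * v (x - y) ^ 2 < v x * v x := by
    calc v (r₁ + r₂) * v (x - y) ^ 2 ≤ v (r₁ + r₂) * v x ^ 2 := by gcongr
      _ < 1 * v x ^ 2 := by gcongr
      _ = v x * v x := by rw [one_mul, sq]
  exact absurd h1 h5.ne

lemma R_aux (hN : IsNodal v V (ν ^ 2)) {x y r₁ r₂ : K}
    (hx1 : v x < 1) (hy : ν < v y) (hyx : v y < v x) (hr₂ : ν < v r₂) (hr : v r₂ < v r₁)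
    (hadd : (r₁ + r₂) * (x - y) ^ 2 =
      2 * (x + y) * (x * y) + V.b₂ * (x * y) + V.b₄ * (x + y) + V.b₆)
    (hmul : r₁ * r₂ * (x - y) ^ 2 =
      x ^ 2 * y ^ 2 - V.b₄ * (x * y) - V.b₆ * (x + y) - V.b₈) :
    v r₁ = v y / v x ∧ (v r₂ = v x * v y ∨ v r₂ = (v x * v y)⁻¹ * ν ^ 2) := by
  have hy0 : 0 < v y := lt_of_le_of_lt zero_le hy
  have hx0 : 0 < v x := lt_trans hy0 hyx
  have hx0' : v x ≠ 0 := hx0.ne'
  have hy0' : v y ≠ 0 := hy0.ne'
  have hy1 : v y < 1 := lt_trans hyx hx1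
  have hd : v (x - y) = v x := Valuation.map_sub_eq_of_lt_left v hyx
  have hs : v (r₁ + r₂) = v r₁ := Valuation.map_add_eq_of_lt_left v hr
  have h1 := T_sum hN (lt_trans hy hyx) hx1 hy hy1
  rw [← hadd, map_mul, map_pow, hd, hs] at h1
  have hr1 : v r₁ = v y / v x := by
    field_simp
    rw [sq] at h1
    have : (v r₁ * v x) * v x = v y * v x := by rw [mul_assoc, h1, mul_comm]
    exact mul_right_cancel₀ hx0' this
  refine ⟨hr1, ?_⟩
  have h3 := congrArg v hmul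
  rw [map_mul, map_mul, map_pow, hd, hr1] at h3
  have h4 : v x * v y * v r₂ =
      v (x ^ 2 * y ^ 2 - V.b₄ * (x * y) - V.b₆ * (x + y) - V.b₈) := by
    rw [← h3]; field_simp
  rcases lt_trichotomy (v x * v y) ν with hlt | heq | hgt
  · right
    rw [T_prod_lt hN hx1 hy1 hlt] at h4
    rw [← h4]; field_simp
  · exfalso
    have h5 := T_prod_le hN hx1 hy1 heq
    have hν0 : 0 < ν := nu_pos hN
    have h6 : ν * v r₂ ≤ ν * ν := by
      rw [heq] at h4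
      rw [h4, ← sq]
      exact h5
    have h7 : v r₂ ≤ ν := le_of_mul_le_mul_left h6 hν0
    exact absurd hr₂ (not_lt.mpr h7)
  · left
    rw [T_prod_gt hN hx1 hy1 hgt, sq] at h4
    exact mul_left_cancel₀ (mul_ne_zero hx0' hy0') h4

lemma R_aux2 (hN : IsNodal v V (ν ^ 2)) {x y r₁ r₂ : K}
    (hx1 : v x < 1) (hy : ν < v y) (hyx : v y < v x) (hr₂ : ν < v r₂) (hr : v r₂ < v r₁)
    (hadd : (r₁ + r₂) * (x - y) ^ 2 =
      2 * (x + y) * (x * y) + V.b₂ * (x * y) + V.b₄ * (x + y) + V.b₆)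
    (hmul : r₁ * r₂ * (x - y) ^ 2 =
      x ^ 2 * y ^ 2 - V.b₄ * (x * y) - V.b₆ * (x + y) - V.b₈) :
    Rel ν (v r₁) (v x / v y) ∧ Rel ν (v r₂) (v x * v y) := by
  obtain ⟨h1, h3⟩ := R_aux hN hx1 hy hyx hr₂ hr hadd hmul
  constructor
  · refine ⟨0, Or.inr ?_⟩
    rw [h1]; simp
  · rcases h3 with h3 | h3
    · exact Rel.of_eq h3
    · refine ⟨1, Or.inr ?_⟩
      rw [h3]; norm_num

lemma R_aux3 (hN : IsNodal v V (ν ^ 2)) {x y r₁ r₂ : K}
    (hx : ν < v x) (hx1 : v x < 1) (hy : ν < v y) (hy1 : v y < 1)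
    (hr₂ : ν < v r₂) (hxy : v x ≠ v y) (hr : v r₂ < v r₁)
    (hadd : (r₁ + r₂) * (x - y) ^ 2 =
      2 * (x + y) * (x * y) + V.b₂ * (x * y) + V.b₄ * (x + y) + V.b₆)
    (hmul : r₁ * r₂ * (x - y) ^ 2 =
      x ^ 2 * y ^ 2 - V.b₄ * (x * y) - V.b₆ * (x + y) - V.b₈) :
    Rel ν (v r₁) (v x / v y) ∧ Rel ν (v r₂) (v x * v y) := by
  rcases lt_or_gt_of_ne hxy with hlt | hgt
  · have hadd' : (r₁ + r₂) * (y - x) ^ 2 =
      2 * (y + x) * (y * x) + V.b₂ * (y * x) + V.b₄ * (y + x) + V.b₆ := by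
      linear_combination hadd
    have hmul' : r₁ * r₂ * (y - x) ^ 2 =
      y ^ 2 * x ^ 2 - V.b₄ * (y * x) - V.b₆ * (y + x) - V.b₈ := by linear_combination hmul
    obtain ⟨h1, h3⟩ := R_aux2 hN hy1 hx hlt hr₂ hr hadd' hmul'
    refine ⟨?_, ?_⟩
    · have := h1.inv_right
      rwa [inv_div] at this
    · rwa [mul_comm] at h3
  · exact R_aux2 hN hx1 hy hgt hr₂ hr hadd hmul

lemma R_main (hN : IsNodal v V (ν ^ 2)) {x y r₁ r₂ : K}
    (hx : ν < v x) (hx1 : v x < 1) (hy : ν < v y) (hy1 : v y < 1)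
    (hr₁ : ν < v r₁) (hr₂ : ν < v r₂) (hxy : v x ≠ v y) (hr : v r₁ ≠ v r₂)
    (hadd : (r₁ + r₂) * (x - y) ^ 2 =
      2 * (x + y) * (x * y) + V.b₂ * (x * y) + V.b₄ * (x + y) + V.b₆)
    (hmul : r₁ * r₂ * (x - y) ^ 2 =
      x ^ 2 * y ^ 2 - V.b₄ * (x * y) - V.b₆ * (x + y) - V.b₈) :
    (Rel ν (v r₁) (v x / v y) ∧ Rel ν (v r₂) (v x * v y)) ∨
    (Rel ν (v r₂) (v x / v y) ∧ Rel ν (v r₁) (v x * v y)) := by
  rcases lt_or_gt_of_ne hr with hlt | hgt
  · right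
    have hadd' : (r₂ + r₁) * (x - y) ^ 2 =
      2 * (x + y) * (x * y) + V.b₂ * (x * y) + V.b₄ * (x + y) + V.b₆ := by
      linear_combination hadd
    have hmul' : r₂ * r₁ * (x - y) ^ 2 =
      x ^ 2 * y ^ 2 - V.b₄ * (x * y) - V.b₆ * (x + y) - V.b₈ := by linear_combination hmul
    exact R_aux3 hN hx hx1 hy hy1 hr₁ hxy hlt hadd' hmul'
  · left
    exact R_aux3 hN hx hx1 hy hy1 hr₂ hxy hgt hadd hmul

/-- the duplication version. -/
lemma R_dbl (hN : IsNodal v V (ν ^ 2)) {x r : K}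
    (hx : ν < v x) (hx1 : v x < 1) (hr : ν < v r)
    (hdbl : r * (4 * x ^ 3 + V.b₂ * x ^ 2 + 2 * V.b₄ * x + V.b₆) =
      x ^ 4 - V.b₄ * x ^ 2 - 2 * V.b₆ * x - V.b₈) :
    Rel ν (v r) (v x ^ 2) := by
  have hx0 : 0 < v x := lt_of_le_of_lt zero_le hx
  have hx0' : v x ≠ 0 := hx0.ne'
  have hx2 : ν ^ 2 < v x ^ 2 := pow_lt_pow_left₀ hx zero_le (by norm_num)
  have e : x ^ 4 - V.b₄ * x ^ 2 - 2 * V.b₆ * x - V.b₈ =
      x ^ 2 * x ^ 2 - V.b₄ * (x * x) - V.b₆ * (x + x) - V.b₈ := by ring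
  have h7 := congrArg v hdbl
  rw [map_mul, v_psi_node hN hx2 hx1, e] at h7
  rcases lt_trichotomy (v x * v x) ν with hlt | heq | hgt
  · rw [T_prod_lt hN hx1 hx1 hlt] at h7
    refine ⟨1, Or.inr ?_⟩
    have : v r = (v x ^ 2)⁻¹ * ν ^ 2 := by
      rw [← h7]; field_simp
    rw [this]; norm_num
  · exfalso
    have h8 := T_prod_le hN hx1 hx1 heq
    have hν0 : 0 < ν := nu_pos hN
    have h9 : ν * v r ≤ ν * ν := by
      rw [sq (v x), heq] at h7
      rw [mul_comm, h7, ← sq ν]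
      exact h8
    exact absurd hr (not_lt.mpr (le_of_mul_le_mul_left h9 hν0))
  · rw [T_prod_gt hN hx1 hx1 hgt] at h7
    apply Rel.of_eq
    have h9 : v r * v x ^ 2 = v x ^ 2 * v x ^ 2 := by rw [h7, ← sq (v x), sq (v x ^ 2)]
    exact mul_right_cancel₀ (pow_ne_zero 2 hx0') h9

/-! ### the induction -/

section ind

variable (h : IsWC V X Z) (hN : IsNodal v V (ν ^ 2)) (hT : IsTors v X T)
  {p : ℕ} (hp : p.Prime) (hp2 : p ≠ 2)

include h hN hT hp hp2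

lemma node_of_mem' {P : G} (hPT : P ∈ T) (hP : P ≠ 0) (hpP : p • P = 0) (hXP : v (X P) < 1) {Q : G}
    (hQ : Q ∈ AddSubgroup.zmultiples P) (hQ0 : Q ≠ 0) :
    Q ∈ T ∧ p • Q = 0 ∧ v (X Q) < 1 ∧ ν < v (X Q) := by
  obtain ⟨k, rfl⟩ := AddSubgroup.mem_zmultiples_iff.mp hQ
  have hQT : k • P ∈ T := T.zsmul_mem hPT k
  have hpQ : p • (k • P) = 0 := by rw [smul_comm, hpP, smul_zero]
  have hlt : v (X (k • P)) < 1 := by
    refine lt_of_le_of_ne (hT.int _ hQT hQ0) ?_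
    intro h1
    -- `P` is a multiple of `k • P`
    have : Fact p.Prime := ⟨hp⟩
    have ho : addOrderOf (k • P) = p := addOrderOf_eq_prime hpQ hQ0
    have hoP : addOrderOf P = p := addOrderOf_eq_prime hpP hP
    have hmem : P ∈ AddSubgroup.zmultiples (k • P) := by
      have hle : AddSubgroup.zmultiples (k • P) ≤ AddSubgroup.zmultiples P :=
        AddSubgroup.zmultiples_le_of_mem hQ
      have hc1 : Nat.card (AddSubgroup.zmultiples (k • P)) = p := by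
        rw [Nat.card_zmultiples, ho]
      have hc2 : Nat.card (AddSubgroup.zmultiples P) = p := by
        rw [Nat.card_zmultiples, hoP]
      have : Finite (AddSubgroup.zmultiples P) :=
        Nat.finite_of_card_ne_zero (by rw [hc2]; exact hp.ne_zero)
      have heq : AddSubgroup.zmultiples (k • P) = AddSubgroup.zmultiples P :=
        AddSubgroup.eq_of_le_of_card_ge hle (by rw [hc1, hc2])
      rw [heq]; exact AddSubgroup.mem_zmultiples P
    obtain ⟨m, hm⟩ := AddSubgroup.mem_zmultiples_iff.mp hmem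
    rcases Int.eq_nat_or_neg m with ⟨n, rfl | rfl⟩
    · rw [natCast_zsmul] at hm
      rcases unit_nsmul h hN hT hQT hQ0 h1 n with h2 | h2
      · exact hP (by rw [← hm, h2])
      · rw [hm] at h2; exact hXP.ne h2
    · rw [neg_smul, natCast_zsmul] at hm
      rcases unit_nsmul h hN hT hQT hQ0 h1 n with h2 | h2
      · exact hP (by rw [← hm, h2, neg_zero])
      · rw [← h.X_neg, hm] at h2; exact hXP.ne h2
  refine ⟨hQT, hpQ, hlt, ?_⟩
  have := node_gt h hN hT hQT hQ0 hlt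
  exact lt_of_pow_lt_pow_left₀ 2 zero_le this

lemma inj_of_mem' {P : G} (hPT : P ∈ T) (hP : P ≠ 0) (hpP : p • P = 0) (hXP : v (X P) < 1) {Q R : G}
    (hQ : Q ∈ AddSubgroup.zmultiples P) (hR : R ∈ AddSubgroup.zmultiples P)
    (hQ0 : Q ≠ 0) (hR0 : R ≠ 0) (hX : X Q ≠ X R) : v (X Q) ≠ v (X R) := by
  have hM : ∀ {S : G}, S ∈ AddSubgroup.zmultiples P → S ≠ 0 →
      S ∈ T ∧ p • S = 0 ∧ v (X S) < 1 ∧ ν < v (X S) :=
    fun hS hS0 => node_of_mem' h hN hT hp hp2 hPT hP hpP hXP hS hS0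
  have hs0 : Q + R ≠ 0 := by
    intro h0; apply hX
    rw [eq_neg_of_add_eq_zero_left h0, h.X_neg]
  have hd0 : Q - R ≠ 0 := by
    intro h0; apply hX; rw [sub_eq_zero.mp h0]
  obtain ⟨-, -, hQ1, hQ2⟩ := hM hQ hQ0
  obtain ⟨-, -, hR1, hR2⟩ := hM hR hR0
  obtain ⟨-, -, hs1, -⟩ := hM (add_mem hQ hR) hs0
  obtain ⟨-, -, hd1, -⟩ := hM (sub_mem hQ hR) hd0
  exact T_inj hN hQ2 hQ1 hR2 hR1 hs1 hd1 (h.add_add_sub hQ0 hR0 hX)

lemma relStep' {P : G} (hPT : P ∈ T) (hP : P ≠ 0) (hpP : p • P = 0) (hXP : v (X P) < 1) {k : ℕ}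
    (hk : k + 3 < p) (S1 : Rel ν (v (X ((k + 1) • P))) (v (X P) ^ (k + 1)))
    (S2 : Rel ν (v (X ((k + 2) • P))) (v (X P) ^ (k + 2))) :
    Rel ν (v (X ((k + 3) • P))) (v (X P) ^ (k + 3)) := by
  have hM : ∀ {S : G}, S ∈ AddSubgroup.zmultiples P → S ≠ 0 →
      S ∈ T ∧ p • S = 0 ∧ v (X S) < 1 ∧ ν < v (X S) :=
    fun hS hS0 => node_of_mem' h hN hT hp hp2 hPT hP hpP hXP hS hS0
  have hmem : ∀ j : ℕ, j • P ∈ AddSubgroup.zmultiples P :=
    fun j => AddSubgroup.nsmul_mem_zmultiples P j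
  have hP' : P ∈ AddSubgroup.zmultiples P := AddSubgroup.mem_zmultiples P
  have hν0 : ν ≠ 0 := (nu_pos hN).ne'
  have h10 : (k + 1) • P ≠ 0 := nsmul_ne_zero_of_lt hp hP hpP (by omega) (by omega)
  have h20 : (k + 2) • P ≠ 0 := nsmul_ne_zero_of_lt hp hP hpP (by omega) (by omega)
  have h30 : (k + 3) • P ≠ 0 := nsmul_ne_zero_of_lt hp hP hpP (by omega) (by omega)
  have e3 : (k + 2) • P + P = (k + 3) • P := (succ_nsmul P (k + 2)).symm
  have e1 : (k + 2) • P - P = (k + 1) • P := by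
    rw [show k + 2 = (k + 1) + 1 from rfl, succ_nsmul]; abel
  have hX21 : X ((k + 2) • P) ≠ X P := by
    intro hX
    rcases (h.X_eq_iff h20 hP).1 hX with h' | h'
    · apply h10; rw [← e1, h', sub_self]
    · apply h30; rw [← e3, h', neg_add_cancel]
  have hX31 : X ((k + 3) • P) ≠ X ((k + 1) • P) := by
    intro hX
    rcases (h.X_eq_iff h30 h10).1 hX with h' | h'
    · apply add_self_ne_zero_of_prime hp hp2 hP hpP
      have : (k + 3) • P = (k + 1) • P + (P + P) := by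
        rw [← e3, ← e1]; abel
      rw [this] at h'
      exact left_eq_add.mp h'.symm
    · apply add_self_ne_zero_of_prime hp hp2 h20 (hM (hmem _) h20).2.1
      have : (k + 2) • P + (k + 2) • P = (k + 3) • P + (k + 1) • P := by
        rw [← e3, ← e1]; abel
      rw [this, h', neg_add_cancel]
  obtain ⟨-, -, hP1, hP2⟩ := hM hP' hP
  obtain ⟨-, -, h11, h12⟩ := hM (hmem _) h10
  obtain ⟨-, -, h21, h22⟩ := hM (hmem _) h20
  obtain ⟨-, -, h31, h32⟩ := hM (hmem _) h30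
  have hγ0 : v (X P) ≠ 0 := (lt_of_le_of_lt zero_le hP2).ne'
  have hxy := inj_of_mem' h hN hT hp hp2 hPT hP hpP hXP (hmem _) hP' h20 hP hX21
  have hr := inj_of_mem' h hN hT hp hp2 hPT hP hpP hXP (hmem _) (hmem _) h30 h10 hX31
  have hadd := h.add_add_sub h20 hP hX21
  have hmul := h.add_mul_sub h20 hP hX21
  rw [e3, e1] at hadd hmul
  have R := R_main hN h22 h21 hP2 hP1 h32 h12 hxy hr hadd hmul
  have Sh := Rel.shift (ν := ν) hγ0 (k := k + 1) S2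
  have S1' := S1.symm hν0 (pow_ne_zero _ hγ0)
  rcases R with ⟨R1, R2⟩ | ⟨R2, R1⟩ <;> rcases Sh with ⟨T1, T2⟩ | ⟨T1, T2⟩
  · exact ((((R1.trans hν0 T2).trans hν0 S1').trans hν0 R2).trans hν0 T1)
  · exact R1.trans hν0 T2
  · exact R1.trans hν0 T1
  · exact ((((R1.trans hν0 T1).trans hν0 S1').trans hν0 R2).trans hν0 T2)

/-- **the tent relation.** -/
theorem tent {P : G} (hPT : P ∈ T) (hP : P ≠ 0) (hpP : p • P = 0) (hXP : v (X P) < 1) :
    ν < v (X P) ∧ ∃ n : ℤ, v (X P) ^ p = ν ^ (2 * n) := by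
  have hM : ∀ {S : G}, S ∈ AddSubgroup.zmultiples P → S ≠ 0 →
      S ∈ T ∧ p • S = 0 ∧ v (X S) < 1 ∧ ν < v (X S) :=
    fun hS hS0 => node_of_mem' h hN hT hp hp2 hPT hP hpP hXP hS hS0
  have hmem : ∀ j : ℕ, j • P ∈ AddSubgroup.zmultiples P :=
    fun j => AddSubgroup.nsmul_mem_zmultiples P j
  have hP' : P ∈ AddSubgroup.zmultiples P := AddSubgroup.mem_zmultiples P
  have hν0 : ν ≠ 0 := (nu_pos hN).ne'
  have hν1 : ν < 1 := nu_lt_one hN
  obtain ⟨-, -, hP1, hP2⟩ := hM hP' hP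
  refine ⟨hP2, ?_⟩
  have hγ0 : v (X P) ≠ 0 := (lt_of_le_of_lt zero_le hP2).ne'
  have key : ∀ k : ℕ, (k + 1 < p → Rel ν (v (X ((k + 1) • P))) (v (X P) ^ (k + 1))) ∧
      (k + 2 < p → Rel ν (v (X ((k + 2) • P))) (v (X P) ^ (k + 2))) := by
    intro k
    induction k with
    | zero =>
      refine ⟨fun _ => ?_, fun h2p => ?_⟩
      · simp only [zero_add, one_smul, pow_one]; exact Rel.refl _ _
      · simp only [zero_add]
        have h20 : 2 • P ≠ 0 := nsmul_ne_zero_of_lt hp hP hpP (by omega) h2p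
        obtain ⟨-, -, h21, h22⟩ := hM (hmem _) h20
        have hd := h.dbl hP (by rw [← two_nsmul]; exact h20)
        rw [h.psi_sq hP, ← two_nsmul] at hd
        exact R_dbl hN hP2 hP1 h22 hd
    | succ k ih =>
      refine ⟨fun hk => ih.2 hk, fun hk => ?_⟩
      exact relStep' h hN hT hp hp2 hPT hP hpP hXP hk (ih.1 (by omega)) (ih.2 (by omega))
  have hp3 : 3 ≤ p := by
    have := hp.two_le
    omega
  obtain ⟨q, rfl⟩ : ∃ q, p = q + 3 := ⟨p - 3, by omega⟩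
  have S2 := (key q).2 (by omega)
  have S1 := (key q).1 (by omega)
  have e : (q + 2) • P = -P := by
    have : (q + 2) • P + P = 0 := by rw [← succ_nsmul]; exact hpP
    exact eq_neg_of_add_eq_zero_left this
  rw [e, h.X_neg] at S2
  obtain ⟨n, S2 | S2⟩ := S2
  · exfalso
    have h10 : (q + 1) • P ≠ 0 := nsmul_ne_zero_of_lt hp hP hpP (by omega) (by omega)
    obtain ⟨-, -, h11, h12⟩ := hM (hmem _) h10
    have h3 : v (X P) ^ (q + 1) = ν ^ (2 * (-n)) := by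
      have h4 : v (X P) * 1 = v (X P) * (v (X P) ^ (q + 1) * ν ^ (2 * n)) := by
        rw [mul_one, ← mul_assoc, ← pow_succ']
        exact S2
      have h5 := mul_left_cancel₀ hγ0 h4
      have h6 : 2 * (-n) = -(2 * n) := by ring
      rw [h6, zpow_neg]
      exact eq_inv_of_mul_eq_one_left h5.symm
    rw [h3] at S1
    obtain ⟨m, S1 | S1⟩ := S1
    · rw [← zpow_add₀ hν0, show 2 * (-n) + 2 * m = 2 * (m - n) by ring] at S1
      rw [S1] at h11 h12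
      exact not_between_zpow hν0 hν1 _ h12 h11
    · rw [← zpow_neg, ← zpow_add₀ hν0, show -(2 * (-n)) + 2 * m = 2 * (m + n) by ring] at S1
      rw [S1] at h11 h12
      exact not_between_zpow hν0 hν1 _ h12 h11
  · refine ⟨n, ?_⟩
    have h3 : v (X P) ^ (q + 2) ≠ 0 := pow_ne_zero _ hγ0
    rw [pow_succ, mul_comm]
    nth_rewrite 1 [S2]
    field_simp

end ind

end Fermat.Agent.S43.BigImg
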